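-- Statement S22 (row 21): the Hecke algebra of cusp forms is a finitely generated Z-module.
-- Route: Eichler-Shimura cocycle lattice (skeleton helper9382; pieces by helper9382, helper6889,
-- helper8902, helper5542, helper9922 and others; assembled by helper9922).
import Fermat.Statements.S22
import Fermat.Agent.S22.Algebra
import Fermat.Agent.S22.ZeroCase
import Fermat.Agent.S22.Hecke
import Fermat.Agent.S22.Separation

set_option autoImplicit false
open CuspForm

namespace Fermat.Agent.S22

theorem result (N : ℕ) [NeZero N] (k : ℤ) (S : Set ℕ) :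
    Module.Finite ℤ (CuspForm.heckeAlgebra N k S) := by
  rcases le_or_gt k 1 with hk | hk
  · exact finite_heckeAlgebra_of_le_one N hk S
  · obtain ⟨n, rfl⟩ : ∃ n : ℕ, k = (n : ℤ) + 2 := ⟨(k - 2).toNat, by omega⟩
    refine finite_adjoin_of_dual_lattice _ (periodLattice N n) (periodLattice_fg N n) ?_
      (periodLattice_separates N n)
    rintro g (⟨ℓ, hℓ, hℓN, -, rfl⟩ | ⟨q, hqN, -, -, rfl⟩) φ hφ
    · exact periodLattice_heckeT N n hℓ hℓN φ hφ
    · exact periodLattice_heckeU N n hqN φ hφ

end Fermat.Agent.S22
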