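import Fermat.Statements.S49
import Fermat.Prelude.Def_CuspForm_HeckeLocal

set_option autoImplicit false
open CuspForm EisensteinWeightOne CongruenceSubgroup ModularFormClass
open FLT FLT.AbstractIntegralStructure

namespace Fermat.Agent.S49


/-- A commuting set of endomorphisms of a finite-dimensional vector space over an algebraically
closed field has a common eigenvector in any nonzero invariant subspace. -/
theorem exists_common_eigenvector {K V : Type*} [Field K] [IsAlgClosed K] [AddCommGroup V]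
    [Module K V] [FiniteDimensional K V] (S : Set (Module.End K V))
    (hS : ∀ a ∈ S, ∀ b ∈ S, a * b = b * a) :
    ∀ (n : ℕ) (W : Submodule K V), Module.finrank K W = n → W ≠ ⊥ →
      (∀ a ∈ S, ∀ w ∈ W, a w ∈ W) →
      ∃ v ∈ W, v ≠ 0 ∧ ∀ a ∈ S, ∃ μ : K, a v = μ • v := by
  intro n
  induction n using Nat.strong_induction_on with
  | _ n ih =>
    intro W hn hW hinv
    by_cases hsc : ∀ a ∈ S, ∃ μ : K, ∀ w ∈ W, a w = μ • w
    · obtain ⟨v, hvW, hv0⟩ := Submodule.exists_mem_ne_zero_of_ne_bot hW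
      exact ⟨v, hvW, hv0, fun a ha => (hsc a ha).imp fun μ hμ => hμ v hvW⟩
    · push Not at hsc
      obtain ⟨a, haS, ha⟩ := hsc
      have : Nontrivial W := Submodule.nontrivial_iff_ne_bot.mpr hW
      obtain ⟨μ, hμ⟩ := Module.End.exists_eigenvalue (a.restrict (hinv a haS))
      obtain ⟨w, hw⟩ := hμ.exists_hasEigenvector
      -- the μ-eigenspace of `a` inside `W`
      let W' : Submodule K V := W ⊓ LinearMap.ker (a - μ • (1 : Module.End K V))
      have hmem : ∀ x : V, x ∈ W' ↔ x ∈ W ∧ a x = μ • x := by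
        intro x
        simp only [W', Submodule.mem_inf, LinearMap.mem_ker, LinearMap.sub_apply,
          LinearMap.smul_apply, Module.End.one_apply, sub_eq_zero]
      have hw1 : (w : V) ∈ W' := by
        rw [hmem]
        refine ⟨w.2, ?_⟩
        have := hw.apply_eq_smul
        have h2 := congrArg Subtype.val this
        simpa using h2
      have hW'0 : W' ≠ ⊥ := by
        intro h
        have : (w : V) = 0 := by
          have := hw1; rw [h] at this; simpa using this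
        exact hw.2 (Subtype.ext this)
      have hW'le : W' ≤ W := inf_le_left
      have hW'lt : W' < W := by
        refine lt_of_le_of_ne hW'le ?_
        intro h
        obtain ⟨x, hxW, hx⟩ := ha μ
        have : x ∈ W' := h ▸ hxW
        exact hx ((hmem x).1 this).2
      have hfr : Module.finrank K W' < n := by
        rw [← hn]; exact Submodule.finrank_lt_finrank_of_lt hW'lt
      have hinv' : ∀ b ∈ S, ∀ x ∈ W', b x ∈ W' := by
        intro b hb x hx
        rw [hmem] at hx ⊢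
        refine ⟨hinv b hb x hx.1, ?_⟩
        have hc := hS a haS b hb
        have : a (b x) = b (a x) := by
          have := congrArg (fun f : Module.End K V => f x) hc
          simpa using this
        rw [this, hx.2, map_smul]
      obtain ⟨v, hv, hv0, hv2⟩ := ih _ hfr W' rfl hW'0 hinv'
      exact ⟨v, hW'le hv, hv0, hv2⟩

theorem bridge_coeff_mod3 (a : ℕ → ℤ) (n : ℕ) :
    (3 : ℤ) ∣ (bridgeProduct a).coeff n - a n := by
  have hE : e1Chi3In ℤ = 1 + PowerSeries.C (3 : ℤ) *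
      PowerSeries.mk (fun n => if n = 0 then 0 else 2 * sigmaChi n) := by
    ext m
    simp only [e1Chi3In, e1Chi3, PowerSeries.coeff_map, PowerSeries.coeff_mk, map_add,
      PowerSeries.coeff_one, PowerSeries.coeff_C_mul, Int.coe_castRingHom, Int.cast_id]
    split_ifs <;> ring
  unfold bridgeProduct
  rw [hE, mul_add, mul_one, map_add, PowerSeries.coeff_mk, mul_left_comm, PowerSeries.coeff_C_mul,
    add_sub_cancel_left]
  exact dvd_mul_right _ _

theorem one_mem_sP (N : ℕ) :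
    (1 : ℝ) ∈ (Subgroup.map (Matrix.SpecialLinearGroup.mapGL ℝ) (Gamma0 N)).strictPeriods :=
  CongruenceSubgroup.one_mem_strictPeriods_Gamma0 N

/-- The `n`-th `q`-coefficient as a linear functional on cusp forms. -/
noncomputable def qCoeffLin (N : ℕ) (k : ℤ) (n : ℕ) : CuspForm (Gamma0 N) k →ₗ[ℂ] ℂ where
  toFun g := qCoeff g n
  map_add' f g := by
    simp only [qCoeff, FunLike.coe_add]
    rw [ModularForm.qExpansion_add one_pos (one_mem_sP N) f g, map_add]
  map_smul' c f := by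
    simp only [qCoeff, FunLike.coe_smul, RingHom.id_apply]
    rw [ModularForm.qExpansion_smul one_pos (one_mem_sP N) c f]
    simp

theorem qCoeffLin_apply (N : ℕ) (k : ℤ) (n : ℕ) (g : CuspForm (Gamma0 N) k) :
    qCoeffLin N k n g = qCoeff g n := rfl

theorem qCoeff_zero_idx {N : ℕ} {k : ℤ} (g : CuspForm (Gamma0 N) k) : qCoeff g 0 = 0 :=
  CuspFormClass.qExpansion_coeff_zero g one_pos (one_mem_sP N)

theorem eq_zero_of_qCoeff {N : ℕ} [NeZero N] {k : ℤ} (g : CuspForm (Gamma0 N) k)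
    (h : ∀ n, qCoeff g n = 0) : g = 0 := by
  apply P2MW.S_CuspForm_intLattice_fg.W3WsD.trunc_injective N k
  funext i
  simp only [P2MW.S_CuspForm_intLattice_fg.W3WsD.trunc, LinearMap.coe_mk, AddHom.coe_mk]
  rw [h, P2MW.S_CuspForm_intLattice_fg.W3WsD.qCoeff_zero']

theorem qCoeff_heckeTLin {N : ℕ} {p : ℕ} (hp : p.Prime) (hpN : ¬ p ∣ N)
    (g : CuspForm (Gamma0 N) 2) (n : ℕ) :
    qCoeff (CuspForm.heckeTLin 2 hp hpN g) n =
      qCoeff g (n * p) + if p ∣ n then (p : ℂ) * qCoeff g (n / p) else 0 := by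
  rw [CuspForm.coe_heckeTLin_apply, ModularFormClass.qCoeff_heckeT g (one_mem_sP N) hp.ne_zero n,
    ModularForm.coeffHeckeT]
  norm_num

theorem qCoeff_heckeULin {N : ℕ} [NeZero N] {p : ℕ} (hp : p.Prime) (hpN : p ∣ N)
    (g : CuspForm (Gamma0 N) 2) (n : ℕ) :
    qCoeff (CuspForm.heckeULin 2 hpN g) n = qCoeff g (n * p) := by
  rw [CuspForm.coe_heckeULin_apply, ModularFormClass.qCoeff_heckeU g (one_mem_sP N) hp.ne_zero n,
    ModularForm.coeffHeckeU]

theorem formal_pow_mul {R : Type*} [CommRing R] (c lam e : ℕ → R) (h1 : c 1 = 1)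
    (hrec : ∀ p, p.Prime → ∀ n, c (n * p) = lam p * c n - e p * (if p ∣ n then c (n / p) else 0))
    {p : ℕ} (hp : p.Prime) (y : ℕ) (hy : ¬ p ∣ y) :
    ∀ r : ℕ, c (p ^ r * y) = c (p ^ r) * c y ∧ c (p ^ (r + 1) * y) = c (p ^ (r + 1)) * c y := by
  have hcp : c p = lam p := by
    have := hrec p hp 1
    rw [one_mul, h1, mul_one, if_neg (by simpa using hp.one_lt.ne'), mul_zero, sub_zero] at this
    exact this
  have hone : c (p ^ 1 * y) = c (p ^ 1) * c y := by
    have := hrec p hp y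
    rw [if_neg hy, mul_zero, sub_zero] at this
    rw [pow_one, mul_comm p y, this, hcp]
  intro r
  induction r with
  | zero => exact ⟨by simp [h1], by simpa using hone⟩
  | succ r ih =>
    refine ⟨ih.2, ?_⟩
    have hpos : 0 < p := hp.pos
    have e1 : p ^ (r + 1 + 1) * y = (p ^ (r + 1) * y) * p := by ring
    have e2 : p ^ (r + 1 + 1) = p ^ (r + 1) * p := by ring
    have d1 : p ∣ p ^ (r + 1) * y := Dvd.dvd.mul_right (dvd_pow_self p (Nat.succ_ne_zero r)) y
    have d2 : p ∣ p ^ (r + 1) := dvd_pow_self p (Nat.succ_ne_zero r)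
    have q1 : p ^ (r + 1) * y / p = p ^ r * y := by
      rw [pow_succ, mul_assoc, mul_comm p y, ← mul_assoc]
      exact Nat.mul_div_cancel _ hpos
    have q2 : p ^ (r + 1) / p = p ^ r := by
      rw [pow_succ]
      exact Nat.mul_div_cancel _ hpos
    rw [e1, hrec p hp, if_pos d1, q1, e2, hrec p hp (p ^ (r + 1)), if_pos d2, q2, ih.1, ih.2]
    ring

theorem formal_mult {R : Type*} [CommRing R] (c lam e : ℕ → R) (h1 : c 1 = 1)
    (hrec : ∀ p, p.Prime → ∀ n, c (n * p) = lam p * c n - e p * (if p ∣ n then c (n / p) else 0)) :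
    ∀ m n : ℕ, m.Coprime n → c (m * n) = c m * c n := by
  intro m
  induction m using Nat.recOnPosPrimePosCoprime with
  | prime_pow p k hp hk =>
    intro n hn
    have hpn : ¬ p ∣ n := by
      rw [Nat.coprime_pow_left_iff hk] at hn
      exact (Nat.Prime.coprime_iff_not_dvd hp).1 hn
    exact (formal_pow_mul c lam e h1 hrec hp n hpn k).1
  | zero =>
    intro n hn
    rw [Nat.coprime_zero_left] at hn
    subst hn
    simp [h1]
  | one =>
    intro n _
    simp [h1]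
  | coprime a b _ _ hab iha ihb =>
    intro n hn
    rw [Nat.coprime_mul_iff_left] at hn
    rw [mul_assoc, iha (b * n) (Nat.Coprime.mul_right hab hn.1), ihb n hn.2, iha b hab]
    ring

/-- All `q`-coefficients are integers divisible by three. -/
def Div3 {N : ℕ} (g : CuspForm (Gamma0 N) 2) : Prop :=
  ∀ n : ℕ, ∃ m : ℤ, qCoeff g n = 3 * (m : ℂ)

theorem div3_zero {N : ℕ} : Div3 (0 : CuspForm (Gamma0 N) 2) := fun n =>
  ⟨0, by rw [← qCoeffLin_apply, map_zero]; simp⟩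

theorem Div3.add {N : ℕ} {g h : CuspForm (Gamma0 N) 2} (hg : Div3 g) (hh : Div3 h) :
    Div3 (g + h) := fun n => by
  obtain ⟨m, hm⟩ := hg n
  obtain ⟨m', hm'⟩ := hh n
  refine ⟨m + m', ?_⟩
  rw [← qCoeffLin_apply, map_add, qCoeffLin_apply, qCoeffLin_apply, hm, hm']
  push_cast; ring

theorem Div3.sub {N : ℕ} {g h : CuspForm (Gamma0 N) 2} (hg : Div3 g) (hh : Div3 h) :
    Div3 (g - h) := fun n => by
  obtain ⟨m, hm⟩ := hg n
  obtain ⟨m', hm'⟩ := hh n
  refine ⟨m - m', ?_⟩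
  rw [← qCoeffLin_apply, map_sub, qCoeffLin_apply, qCoeffLin_apply, hm, hm']
  push_cast; ring

theorem Div3.int_smul {N : ℕ} {g : CuspForm (Gamma0 N) 2} (hg : Div3 g) (r : ℤ) :
    Div3 ((r : ℂ) • g) := fun n => by
  obtain ⟨m, hm⟩ := hg n
  refine ⟨r * m, ?_⟩
  rw [← qCoeffLin_apply, map_smul, qCoeffLin_apply, hm]
  push_cast; simp only [smul_eq_mul]; ring

theorem Div3.hecke {N : ℕ} [NeZero N] {g : CuspForm (Gamma0 N) 2} (hg : Div3 g)
    {t : Module.End ℂ (CuspForm (Gamma0 N) 2)} (ht : t ∈ CuspForm.heckeAlgebra N 2 (∅ : Set ℕ)) :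
    Div3 (t g) := by
  have hg' : ((3 : ℂ)⁻¹ • g) ∈ CuspForm.intLattice N 2 := by
    rw [P2MW.S_CuspForm_intLattice_fg.W3WsD.mem_intLattice_iff]
    intro n
    obtain ⟨m, hm⟩ := hg n
    refine ⟨m, ?_⟩
    rw [← qCoeffLin_apply, map_smul, qCoeffLin_apply, hm]
    simp
  have h2 := CuspForm.mem_intLattice_of_mem_heckeAlgebra one_le_two ht hg'
  rw [P2MW.S_CuspForm_intLattice_fg.W3WsD.mem_intLattice_iff] at h2
  intro n
  obtain ⟨m, hm⟩ := h2 n
  refine ⟨m, ?_⟩
  have h3 : t g = (3 : ℂ) • t ((3 : ℂ)⁻¹ • g) := by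
    rw [← map_smul, smul_smul]; norm_num
  rw [h3, ← qCoeffLin_apply, map_smul, qCoeffLin_apply, hm]
  simp

/-- `t f ≡ m • f` modulo three. -/
def Cong {N : ℕ} (f : CuspForm (Gamma0 N) 2) (t : Module.End ℂ (CuspForm (Gamma0 N) 2))
    (m : ℤ) : Prop :=
  Div3 (t f - (m : ℂ) • f)

theorem exists_cong {N : ℕ} [NeZero N] (f : CuspForm (Gamma0 N) 2)
    (hgen : ∀ t ∈ CuspForm.heckeGenerators N 2 (∅ : Set ℕ), ∃ m : ℤ, Cong f t m)
    {t : Module.End ℂ (CuspForm (Gamma0 N) 2)} (ht : t ∈ CuspForm.heckeAlgebra N 2 (∅ : Set ℕ)) :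
    ∃ m : ℤ, Cong f t m := by
  refine Algebra.adjoin_induction (p := fun t _ => ∃ m : ℤ, Cong f t m) ?_ ?_ ?_ ?_ ht
  · intro x hx
    exact hgen x hx
  · intro r
    refine ⟨r, ?_⟩
    unfold Cong
    have : (algebraMap ℤ (Module.End ℂ (CuspForm (Gamma0 N) 2)) r) f = (r : ℂ) • f := by
      rw [Algebra.algebraMap_eq_smul_one, LinearMap.smul_apply, Module.End.one_apply]
      exact (Int.cast_smul_eq_zsmul ℂ r f).symm
    rw [this, sub_self]
    exact div3_zero
  · intro x y _ _ ⟨m, hm⟩ ⟨m', hm'⟩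
    refine ⟨m + m', ?_⟩
    unfold Cong at *
    have : (x + y) f - ((m + m' : ℤ) : ℂ) • f = (x f - (m : ℂ) • f) + (y f - (m' : ℂ) • f) := by
      rw [LinearMap.add_apply]; push_cast; rw [add_smul]; abel
    rw [this]
    exact hm.add hm'
  · intro x y hx _ ⟨m, hm⟩ ⟨m', hm'⟩
    refine ⟨m * m', ?_⟩
    unfold Cong at *
    have : (x * y) f - ((m * m' : ℤ) : ℂ) • f
        = x (y f - (m' : ℂ) • f) + (m' : ℂ) • (x f - (m : ℂ) • f) := by
      rw [Module.End.mul_apply, map_sub, map_smul, smul_sub, smul_smul]; push_cast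
      rw [mul_comm (m' : ℂ) (m : ℂ)]; abel
    rw [this]
    exact (hm'.hecke hx).add (hm.int_smul m')

theorem exists_eigen_character {N : ℕ} [NeZero N]
    [FiniteDimensional ℂ (CuspForm (Gamma0 N) 2)]
    (I : Ideal (CuspForm.heckeAlgebra N 2 (∅ : Set ℕ))) (hI : I.IsPrime)
    (f : CuspForm (Gamma0 N) 2)
    (hf : ∀ s : CuspForm.heckeAlgebra N 2 (∅ : Set ℕ), s.1 f = 0 → s ∈ I) :
    ∃ (g : CuspForm (Gamma0 N) 2) (χ : CuspForm.heckeAlgebra N 2 (∅ : Set ℕ) →+* ℂ),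
      g ≠ 0 ∧ (∀ t : CuspForm.heckeAlgebra N 2 (∅ : Set ℕ), t.1 g = χ t • g) ∧
        RingHom.ker χ ≤ I := by
  classical
  -- kernels of elements outside `I`
  let 𝒦 : Set (Submodule ℂ (CuspForm (Gamma0 N) 2)) :=
    {K | ∃ s : CuspForm.heckeAlgebra N 2 (∅ : Set ℕ), s ∉ I ∧ K = LinearMap.ker s.1}
  have hne : 𝒦.Nonempty :=
    ⟨_, 1, (Ideal.ne_top_iff_one I).1 hI.ne_top, rfl⟩
  obtain ⟨K₀, ⟨s₀, hs₀, rfl⟩, hmax⟩ :=
    (wellFounded_gt : WellFounded ((· > ·) : Submodule ℂ (CuspForm (Gamma0 N) 2) → _ → Prop)).has_min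
      𝒦 hne
  have hmulval : ∀ s t : CuspForm.heckeAlgebra N 2 (∅ : Set ℕ), ∀ v : CuspForm (Gamma0 N) 2,
      (s * t).1 v = s.1 (t.1 v) := fun s t v => rfl
  have hcomm : ∀ s t : CuspForm.heckeAlgebra N 2 (∅ : Set ℕ), ∀ v : CuspForm (Gamma0 N) 2,
      s.1 (t.1 v) = t.1 (s.1 v) := fun s t v => by
    rw [← hmulval, ← hmulval, mul_comm]
  have key : ∀ s : CuspForm.heckeAlgebra N 2 (∅ : Set ℕ), s ∉ I →
      ∀ v : CuspForm (Gamma0 N) 2, s.1 (s₀.1 v) = 0 → s₀.1 v = 0 := by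
    intro s hs v hv
    have hmem : LinearMap.ker (s * s₀).1 ∈ 𝒦 :=
      ⟨s * s₀, fun h => (hI.mem_or_mem h).elim hs hs₀, rfl⟩
    have hle : LinearMap.ker s₀.1 ≤ LinearMap.ker (s * s₀).1 := by
      intro x hx
      rw [LinearMap.mem_ker] at hx ⊢
      rw [hmulval, hx, map_zero]
    have heq : LinearMap.ker s₀.1 = LinearMap.ker (s * s₀).1 :=
      eq_of_le_of_not_lt hle (hmax _ hmem)
    have : v ∈ LinearMap.ker (s * s₀).1 := by
      rw [LinearMap.mem_ker, hmulval]; exact hv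
    rw [← heq, LinearMap.mem_ker] at this
    exact this
  -- the invariant subspace
  let W : Submodule ℂ (CuspForm (Gamma0 N) 2) := LinearMap.range s₀.1
  have hW : W ≠ ⊥ := by
    intro h
    have h1 : s₀.1 f ∈ W := LinearMap.mem_range_self _ f
    rw [h, Submodule.mem_bot] at h1
    exact hs₀ (hf s₀ h1)
  let S : Set (Module.End ℂ (CuspForm (Gamma0 N) 2)) :=
    Set.range fun t : CuspForm.heckeAlgebra N 2 (∅ : Set ℕ) => t.1
  have hS : ∀ a ∈ S, ∀ b ∈ S, a * b = b * a := by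
    rintro _ ⟨s, rfl⟩ _ ⟨t, rfl⟩
    exact congrArg Subtype.val (mul_comm s t)
  have hinv : ∀ a ∈ S, ∀ w ∈ W, a w ∈ W := by
    rintro _ ⟨t, rfl⟩ _ ⟨v, rfl⟩
    exact ⟨t.1 v, (hcomm t s₀ v).symm⟩
  obtain ⟨g, hgW, hg0, hg⟩ := exists_common_eigenvector S hS _ W rfl hW hinv
  have hex : ∀ t : CuspForm.heckeAlgebra N 2 (∅ : Set ℕ), ∃ μ : ℂ, t.1 g = μ • g :=
    fun t => hg t.1 ⟨t, rfl⟩
  choose χ hχ using hex
  have huniq : ∀ μ μ' : ℂ, μ • g = μ' • g → μ = μ' := fun μ μ' h =>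
    smul_left_injective ℂ hg0 h
  let χr : CuspForm.heckeAlgebra N 2 (∅ : Set ℕ) →+* ℂ :=
    { toFun := χ
      map_one' := by
        apply huniq
        rw [← hχ, one_smul]; rfl
      map_mul' := fun s t => by
        apply huniq
        rw [← hχ, hmulval, hχ t, map_smul, hχ s, smul_smul, mul_comm]
      map_zero' := by
        apply huniq
        rw [← hχ, zero_smul]; rfl
      map_add' := fun s t => by
        apply huniq
        rw [← hχ, add_smul, ← hχ, ← hχ]; rfl }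
  refine ⟨g, χr, hg0, hχ, ?_⟩
  intro t ht
  rw [RingHom.mem_ker] at ht
  by_contra htI
  obtain ⟨v, rfl⟩ := hgW
  have h0 : t.1 (s₀.1 v) = 0 := by
    rw [hχ t]
    have : χ t = 0 := ht
    rw [this, zero_smul]
  exact hg0 (key t htI v h0)

/-- The coefficient recursion satisfied by a simultaneous Hecke eigenvector. -/
theorem eigen_rec {N : ℕ} [NeZero N] (g : CuspForm (Gamma0 N) 2) (lam : ℕ → ℂ)
    (hT : ∀ p (hp : p.Prime) (hpN : ¬ p ∣ N), CuspForm.heckeTLin 2 hp hpN g = lam p • g)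
    (hU : ∀ p (_ : p.Prime) (hpN : p ∣ N), CuspForm.heckeULin 2 hpN g = lam p • g) :
    ∀ p, p.Prime → ∀ n, qCoeff g (n * p) =
      lam p * qCoeff g n - (if p ∣ N then 0 else (p : ℂ)) * (if p ∣ n then qCoeff g (n / p) else 0) := by
  intro p hp n
  by_cases hpN : p ∣ N
  · have h := congrArg (qCoeffLin N 2 n) (hU p hp hpN)
    rw [map_smul, qCoeffLin_apply, qCoeffLin_apply, qCoeff_heckeULin hp hpN, smul_eq_mul] at h
    rw [if_pos hpN, zero_mul, sub_zero, h]
  · have h := congrArg (qCoeffLin N 2 n) (hT p hp hpN)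
    rw [map_smul, qCoeffLin_apply, qCoeffLin_apply, qCoeff_heckeTLin hp hpN, smul_eq_mul] at h
    rw [if_neg hpN, ← h]
    split_ifs <;> ring

theorem isNormalizedEigenform_of_eigen {N : ℕ} [NeZero N] (g : CuspForm (Gamma0 N) 2) (hg : g ≠ 0)
    (lam : ℕ → ℂ)
    (hT : ∀ p (hp : p.Prime) (hpN : ¬ p ∣ N), CuspForm.heckeTLin 2 hp hpN g = lam p • g)
    (hU : ∀ p (_ : p.Prime) (hpN : p ∣ N), CuspForm.heckeULin 2 hpN g = lam p • g) :
    ∃ g' : CuspForm (Gamma0 N) 2, g'.IsNormalizedEigenform ∧ ∀ p, p.Prime → qCoeff g' p = lam p := by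
  have hrec := eigen_rec g lam hT hU
  -- the first coefficient is nonzero
  have hb1 : qCoeff g 1 ≠ 0 := by
    intro h1
    apply hg
    apply eq_zero_of_qCoeff
    intro n
    induction n using Nat.strong_induction_on with
    | _ n ih =>
      rcases Nat.lt_or_ge n 2 with hn | hn
      · interval_cases n
        · exact qCoeff_zero_idx g
        · exact h1
      · have hp : (n.minFac).Prime := Nat.minFac_prime (by omega)
        have hdvd : n.minFac ∣ n := Nat.minFac_dvd n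
        have hlt : n / n.minFac < n := Nat.div_lt_self (by omega) hp.one_lt
        have hn' : n = n / n.minFac * n.minFac := (Nat.div_mul_cancel hdvd).symm
        have h := hrec n.minFac hp (n / n.minFac)
        rw [← hn', ih _ hlt] at h
        rw [h]
        split_ifs with h1 h2
        · simp
        · simp
        · rw [ih _ (lt_of_le_of_lt (Nat.div_le_self _ _) hlt)]; simp
        · simp
  set g' : CuspForm (Gamma0 N) 2 := (qCoeff g 1)⁻¹ • g with hg'
  have hc : ∀ n, qCoeff g' n = (qCoeff g 1)⁻¹ * qCoeff g n := fun n => by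
    rw [hg', ← qCoeffLin_apply, map_smul, smul_eq_mul, qCoeffLin_apply]
  have hc1 : qCoeff g' 1 = 1 := by rw [hc, inv_mul_cancel₀ hb1]
  have hrec' : ∀ p, p.Prime → ∀ n, qCoeff g' (n * p) =
      lam p * qCoeff g' n -
        (if p ∣ N then 0 else (p : ℂ)) * (if p ∣ n then qCoeff g' (n / p) else 0) := by
    intro p hp n
    rw [hc, hc, hrec p hp n]
    split_ifs <;> (try rw [hc]) <;> ring
  have hcp : ∀ p, p.Prime → qCoeff g' p = lam p := by
    intro p hp
    have hp1 : ¬ p ∣ 1 := by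
      rw [Nat.dvd_one]; exact hp.one_lt.ne'
    have := hrec' p hp 1
    rw [one_mul, hc1, mul_one, if_neg hp1, mul_zero, sub_zero] at this
    exact this
  refine ⟨g', ⟨hc1, formal_mult _ lam _ hc1 hrec', ?_, ?_⟩, hcp⟩
  · intro p r hp hpN
    have h := hrec' p hp (p ^ (r + 1))
    have d2 : p ∣ p ^ (r + 1) := dvd_pow_self p (Nat.succ_ne_zero r)
    have q2 : p ^ (r + 1) / p = p ^ r := by
      rw [pow_succ]
      exact Nat.mul_div_cancel _ hp.pos
    rw [if_neg hpN, if_pos d2, q2, ← pow_succ] at h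
    rw [h, hcp p hp]
  · intro p r hp hpN
    have h := hrec' p hp (p ^ (r + 1))
    rw [if_pos hpN, zero_mul, sub_zero, ← pow_succ] at h
    rw [h, hcp p hp]

theorem hasIntegralStructure_of_basis {N : ℕ} (h : CuspForm.HasIntegralBasis N) :
    CuspForm.HasIntegralStructure N 2 := by
  unfold CuspForm.HasIntegralStructure
  unfold CuspForm.HasIntegralBasis at h
  rw [eq_top_iff, ← h]
  apply Submodule.span_mono
  intro f hf
  apply Submodule.subset_span
  intro n
  have := hf n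
  rw [Subring.mem_bot] at this
  obtain ⟨m, hm⟩ := this
  exact ⟨m, hm.symm⟩

theorem finiteDimensional_of_basis {N : ℕ} [NeZero N] (h : CuspForm.HasIntegralBasis N) :
    FiniteDimensional ℂ (CuspForm (Gamma0 N) 2) := by
  have h2 := hasIntegralStructure_of_basis h
  unfold CuspForm.HasIntegralStructure at h2
  obtain ⟨s, hs⟩ := CuspForm.intLattice_fg N 2
  refine Module.finite_def.mpr ⟨s, ?_⟩
  rw [eq_top_iff, ← h2, Submodule.span_le, ← hs]
  exact fun x hx => Submodule.span_le_restrictScalars ℤ ℂ _ hx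

theorem isIntegral_hecke {N : ℕ} [NeZero N] (h : CuspForm.HasIntegralStructure N 2)
    (t : CuspForm.heckeAlgebra N 2 (∅ : Set ℕ)) : IsIntegral ℤ t := by
  have := CuspForm.intLattice.moduleFinite N
  have h1 : IsIntegral ℤ ((CuspForm.latticeActionHom N (∅ : Set ℕ)).toIntAlgHom t) :=
    Algebra.IsIntegral.isIntegral _
  exact (isIntegral_algHom_iff _ (CuspForm.latticeActionHom_injective N ∅ h)).1 h1

theorem chi_cong (ℓ : ℕ) : (3 : ℤ) ∣ (ℓ : ℤ) - chiNegThree ℓ := by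
  unfold chiNegThree; split_ifs <;> omega

theorem gen_cong_T {N : ℕ} [NeZero N] {a : ℕ → ℤ}
    (heig : FormalHecke.IsEigensystem
      (fun ℓ => if ℓ ∣ N then 0 else ((chiNegThree ℓ : ℤ) : ℤ)) a)
    (f : CuspForm (Gamma0 N) 2) (af : ℕ → ℤ) (haf : ∀ n, (af n : ℂ) = qCoeff f n)
    (hcong : ∀ n, (3 : ℤ) ∣ af n - a n) {ℓ : ℕ} (hℓ : ℓ.Prime) (hℓN : ¬ ℓ ∣ N) :
    Cong f (CuspForm.heckeTLin 2 hℓ hℓN) (a ℓ) := by
  intro n
  have hZ : ∃ m : ℤ, af (n * ℓ) + (if ℓ ∣ n then (ℓ : ℤ) * af (n / ℓ) else 0) - a ℓ * af n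
      = 3 * m := by
    have he := heig.2 ℓ hℓ n
    simp only [if_neg hℓN] at he
    obtain ⟨k1, hk1⟩ := hcong (n * ℓ)
    obtain ⟨k2, hk2⟩ := hcong n
    obtain ⟨k3, hk3⟩ := hcong (n / ℓ)
    obtain ⟨k4, hk4⟩ := chi_cong ℓ
    rw [mul_comm ℓ n] at he
    by_cases hd : ℓ ∣ n
    · rw [if_pos hd] at he ⊢
      exact ⟨k1 + k4 * a (n / ℓ) + ℓ * k3 - a ℓ * k2, by
        linear_combination hk1 + he + a (n / ℓ) * hk4 + (ℓ : ℤ) * hk3 - a ℓ * hk2⟩
    · rw [if_neg hd] at he ⊢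
      exact ⟨k1 - a ℓ * k2, by linear_combination hk1 + he - a ℓ * hk2⟩
  obtain ⟨m, hm⟩ := hZ
  refine ⟨m, ?_⟩
  rw [← qCoeffLin_apply, map_sub, map_smul, qCoeffLin_apply, qCoeffLin_apply,
    qCoeff_heckeTLin hℓ hℓN, ← haf, ← haf, ← haf, smul_eq_mul]
  have := congrArg (Int.cast : ℤ → ℂ) hm
  push_cast at this
  rw [← this]

theorem gen_cong_U {N : ℕ} [NeZero N] {a : ℕ → ℤ}
    (heig : FormalHecke.IsEigensystem
      (fun ℓ => if ℓ ∣ N then 0 else ((chiNegThree ℓ : ℤ) : ℤ)) a)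
    (f : CuspForm (Gamma0 N) 2) (af : ℕ → ℤ) (haf : ∀ n, (af n : ℂ) = qCoeff f n)
    (hcong : ∀ n, (3 : ℤ) ∣ af n - a n) {q : ℕ} (hq : q.Prime) (hqN : q ∣ N) :
    Cong f (CuspForm.heckeULin 2 hqN) (a q) := by
  intro n
  have hZ : ∃ m : ℤ, af (n * q) - a q * af n = 3 * m := by
    have he := heig.2 q hq n
    simp only [if_pos hqN, zero_mul, add_zero] at he
    obtain ⟨k1, hk1⟩ := hcong (n * q)
    obtain ⟨k2, hk2⟩ := hcong n
    rw [mul_comm q n] at he
    exact ⟨k1 - a q * k2, by linear_combination hk1 + he - a q * hk2⟩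
  obtain ⟨m, hm⟩ := hZ
  refine ⟨m, ?_⟩
  rw [← qCoeffLin_apply, map_sub, map_smul, qCoeffLin_apply, qCoeffLin_apply,
    qCoeff_heckeULin hq hqN, ← haf, ← haf, smul_eq_mul]
  have := congrArg (Int.cast : ℤ → ℂ) hm
  push_cast at this
  rw [← this]

theorem gen_cong {N : ℕ} [NeZero N] {a : ℕ → ℤ}
    (heig : FormalHecke.IsEigensystem
      (fun ℓ => if ℓ ∣ N then 0 else ((chiNegThree ℓ : ℤ) : ℤ)) a)
    (f : CuspForm (Gamma0 N) 2) (af : ℕ → ℤ) (haf : ∀ n, (af n : ℂ) = qCoeff f n)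
    (hcong : ∀ n, (3 : ℤ) ∣ af n - a n) :
    ∀ t ∈ CuspForm.heckeGenerators N 2 (∅ : Set ℕ), ∃ m : ℤ, Cong f t m := by
  rintro t (⟨ℓ, hℓ, hℓN, -, rfl⟩ | ⟨q, hqN, hq, -, rfl⟩)
  · exact ⟨a ℓ, gen_cong_T heig f af haf hcong hℓ hℓN⟩
  · exact ⟨a q, gen_cong_U heig f af haf hcong hq hqN⟩

/-- The ideal of Hecke operators killing `f` modulo three. -/
noncomputable def idealI {N : ℕ} [NeZero N] (f : CuspForm (Gamma0 N) 2) :
    Ideal (CuspForm.heckeAlgebra N 2 (∅ : Set ℕ)) where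
  carrier := {t | Div3 (t.1 f)}
  add_mem' := fun {s t} hs ht => by
    show Div3 ((s + t).1 f)
    have : (s + t).1 f = s.1 f + t.1 f := rfl
    rw [this]; exact Div3.add hs ht
  zero_mem' := by
    show Div3 ((0 : CuspForm.heckeAlgebra N 2 (∅ : Set ℕ)).1 f)
    have : (0 : CuspForm.heckeAlgebra N 2 (∅ : Set ℕ)).1 f = 0 := rfl
    rw [this]; exact div3_zero
  smul_mem' := fun s t ht => by
    show Div3 ((s * t).1 f)
    have : (s * t).1 f = s.1 (t.1 f) := rfl
    rw [this]; exact Div3.hecke ht s.2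

theorem mem_idealI {N : ℕ} [NeZero N] (f : CuspForm (Gamma0 N) 2)
    (t : CuspForm.heckeAlgebra N 2 (∅ : Set ℕ)) : t ∈ idealI f ↔ Div3 (t.1 f) := Iff.rfl

theorem algebraMap_apply_f {N : ℕ} [NeZero N] (f : CuspForm (Gamma0 N) 2) (m : ℤ) :
    (algebraMap ℤ (CuspForm.heckeAlgebra N 2 (∅ : Set ℕ)) m).1 f = (m : ℂ) • f := by
  have : (algebraMap ℤ (CuspForm.heckeAlgebra N 2 (∅ : Set ℕ)) m).1
      = algebraMap ℤ (Module.End ℂ (CuspForm (Gamma0 N) 2)) m := rfl
  rw [this, Algebra.algebraMap_eq_smul_one, LinearMap.smul_apply, Module.End.one_apply]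
  exact (Int.cast_smul_eq_zsmul ℂ m f).symm

theorem idealI_isMaximal {N : ℕ} [NeZero N] (f : CuspForm (Gamma0 N) 2)
    (af : ℕ → ℤ) (haf : ∀ n, (af n : ℂ) = qCoeff f n) (h1 : (3 : ℤ) ∣ af 1 - 1)
    (hgen : ∀ t ∈ CuspForm.heckeGenerators N 2 (∅ : Set ℕ), ∃ m : ℤ, Cong f t m) :
    (idealI f).IsMaximal := by
  -- divisibility facts
  have hi : ∀ m : ℤ, Div3 ((m : ℂ) • f) → (3 : ℤ) ∣ m := by
    intro m hm
    obtain ⟨k, hk⟩ := hm 1
    rw [← qCoeffLin_apply, map_smul, qCoeffLin_apply, ← haf, smul_eq_mul] at hk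
    have hk' : m * af 1 = 3 * k := by exact_mod_cast hk
    obtain ⟨j, hj⟩ := h1
    exact ⟨k - j * m, by linear_combination hk' - m * hj⟩
  have hii : ∀ m : ℤ, (3 : ℤ) ∣ m → Div3 ((m : ℂ) • f) := by
    rintro m ⟨k, rfl⟩ n
    refine ⟨k * af n, ?_⟩
    rw [← qCoeffLin_apply, map_smul, qCoeffLin_apply, ← haf, smul_eq_mul]
    push_cast; ring
  have h3 : algebraMap ℤ (CuspForm.heckeAlgebra N 2 (∅ : Set ℕ)) 3 ∈ idealI f := by
    rw [mem_idealI, algebraMap_apply_f]
    exact hii 3 dvd_rfl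
  rw [Ideal.isMaximal_iff]
  refine ⟨?_, ?_⟩
  · intro h
    rw [mem_idealI] at h
    have : (1 : CuspForm.heckeAlgebra N 2 (∅ : Set ℕ)).1 f = ((1 : ℤ) : ℂ) • f := by
      rw [Int.cast_one, one_smul]; rfl
    rw [this] at h
    have := hi 1 h
    omega
  · intro J x hIJ hx hxJ
    obtain ⟨m, hm⟩ := exists_cong f hgen x.2
    have hxm : x - algebraMap ℤ (CuspForm.heckeAlgebra N 2 (∅ : Set ℕ)) m ∈ idealI f := by
      rw [mem_idealI]
      have : (x - algebraMap ℤ (CuspForm.heckeAlgebra N 2 (∅ : Set ℕ)) m).1 f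
          = x.1 f - (algebraMap ℤ (CuspForm.heckeAlgebra N 2 (∅ : Set ℕ)) m).1 f := rfl
      rw [this, algebraMap_apply_f]
      exact hm
    have hm3 : ¬ (3 : ℤ) ∣ m := by
      intro h
      apply hx
      rw [mem_idealI]
      have : x.1 f = (x.1 f - (m : ℂ) • f) + (m : ℂ) • f := by abel
      rw [this]
      exact Div3.add hm (hii m h)
    have hmJ : algebraMap ℤ (CuspForm.heckeAlgebra N 2 (∅ : Set ℕ)) m ∈ J := by
      have := J.sub_mem hxJ (hIJ hxm)
      simpa using this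
    have h3J := hIJ h3
    obtain ⟨u, v, huv⟩ : IsCoprime (3 : ℤ) m :=
      (Int.prime_three.irreducible.coprime_iff_not_dvd).2 hm3
    have : (1 : CuspForm.heckeAlgebra N 2 (∅ : Set ℕ))
        = algebraMap ℤ _ u * algebraMap ℤ _ 3 + algebraMap ℤ _ v * algebraMap ℤ _ m := by
      rw [← map_mul, ← map_mul, ← map_add, huv, map_one]
    rw [this]
    exact J.add_mem (J.mul_mem_left _ h3J) (J.mul_mem_left _ hmJ)


theorem result
    {N : ℕ} [NeZero N] (h : CuspForm.HasIntegralBasis N) {a : ℕ → ℤ}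
    (heig : FormalHecke.IsEigensystem
      (fun ℓ => if ℓ ∣ N then 0 else ((chiNegThree ℓ : ℤ) : ℤ)) a)
    (hreal : CuspForm.IsLatticeRealized N a) :
    ∃ (f : CuspForm (Gamma0 N) 2) (_ : f.IsNormalizedEigenform)
      (𝔪' : Ideal (integralClosure ℤ ℂ)), 𝔪'.IsMaximal ∧
      ((3 : ℕ) : integralClosure ℤ ℂ) ∈ 𝔪' ∧
      ∀ (ℓ : ℕ) (_ : ℓ.Prime) (_ : ¬ ℓ ∣ N),
        ∃ c : integralClosure ℤ ℂ, (c : ℂ) = ModularFormClass.qCoeff f ℓ ∧
          c - (a ℓ : integralClosure ℤ ℂ) ∈ 𝔪' := by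
  classical
  obtain ⟨f, -, af, haf, hbr⟩ := hreal
  have hcong : ∀ n, (3 : ℤ) ∣ af n - a n := fun n => by
    have := dvd_add (hbr n) (bridge_coeff_mod3 a n)
    simpa using this
  have hstr := hasIntegralStructure_of_basis h
  have := finiteDimensional_of_basis h
  have hgen := gen_cong heig f af haf hcong
  have h1 : (3 : ℤ) ∣ af 1 - 1 := by
    have := hcong 1
    rwa [heig.1] at this
  have hmax := idealI_isMaximal f af haf h1 hgen
  obtain ⟨g, χ, hg0, hχ, hker⟩ := exists_eigen_character (idealI f) hmax.isPrime f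
    (fun s hs => by
      rw [mem_idealI, hs]
      exact div3_zero)
  -- integrality of the eigenvalues
  have hint : ∀ t, χ t ∈ integralClosure ℤ ℂ := fun t =>
    map_isIntegral_int χ (isIntegral_hecke hstr t)
  let ψ : CuspForm.heckeAlgebra N 2 (∅ : Set ℕ) →+* integralClosure ℤ ℂ :=
    χ.codRestrict (integralClosure ℤ ℂ) hint
  have hψ : ∀ t, ((ψ t : integralClosure ℤ ℂ) : ℂ) = χ t := fun t => rfl
  let _ : Algebra (CuspForm.heckeAlgebra N 2 (∅ : Set ℕ)) (integralClosure ℤ ℂ) := ψ.toAlgebra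
  have halg : algebraMap (CuspForm.heckeAlgebra N 2 (∅ : Set ℕ)) (integralClosure ℤ ℂ) = ψ :=
    RingHom.algebraMap_toAlgebra ψ
  have : Algebra.IsIntegral (CuspForm.heckeAlgebra N 2 (∅ : Set ℕ)) (integralClosure ℤ ℂ) :=
    ⟨fun x => IsIntegral.tower_top (R := ℤ) (Algebra.IsIntegral.isIntegral x)⟩
  obtain ⟨Q, hQmax, hQ⟩ := Ideal.exists_ideal_over_maximal_of_isIntegral
    (S := integralClosure ℤ ℂ) (idealI f) (by
      intro t ht
      apply hker
      rw [RingHom.mem_ker] at ht ⊢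
      rw [halg] at ht
      rw [← hψ t, ht]
      rfl)
  rw [halg] at hQ
  have hQmem : ∀ t, t ∈ idealI f → ψ t ∈ Q := fun t ht => by
    rw [← hQ] at ht
    exact ht
  -- the eigenvalues
  let lam : ℕ → ℂ := fun p =>
    if hp : p.Prime then
      (if hpN : p ∣ N then χ (heckeAlgebra.U hp hpN (Set.notMem_empty p))
        else χ (heckeAlgebra.T hp hpN (Set.notMem_empty p)))
    else 0
  obtain ⟨g', hg', hcoef⟩ := isNormalizedEigenform_of_eigen g hg0 lam
    (fun p hp hpN => by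
      have := hχ (heckeAlgebra.T hp hpN (Set.notMem_empty p))
      simp only [lam, dif_pos hp, dif_neg hpN]
      exact this)
    (fun p hp hpN => by
      have := hχ (heckeAlgebra.U hp hpN (Set.notMem_empty p))
      simp only [lam, dif_pos hp, dif_pos hpN]
      exact this)
  have hψint : ∀ m : ℤ, ψ (algebraMap ℤ _ m) = (m : integralClosure ℤ ℂ) := fun m => by
    rw [eq_intCast, map_intCast]
  refine ⟨g', hg', Q, hQmax, ?_, ?_⟩
  · have h3 : algebraMap ℤ (CuspForm.heckeAlgebra N 2 (∅ : Set ℕ)) 3 ∈ idealI f := by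
      rw [mem_idealI, algebraMap_apply_f]
      intro n
      refine ⟨af n, ?_⟩
      rw [← qCoeffLin_apply, map_smul, qCoeffLin_apply, ← haf, smul_eq_mul]
      push_cast; ring
    have := hQmem _ h3
    rw [hψint] at this
    exact_mod_cast this
  · intro ℓ hℓ hℓN
    refine ⟨ψ (heckeAlgebra.T hℓ hℓN (Set.notMem_empty ℓ)), ?_, ?_⟩
    · rw [hψ, hcoef ℓ hℓ]
      simp only [lam, dif_pos hℓ, dif_neg hℓN]
    · have hmem : heckeAlgebra.T hℓ hℓN (Set.notMem_empty ℓ)
          - algebraMap ℤ (CuspForm.heckeAlgebra N 2 (∅ : Set ℕ)) (a ℓ) ∈ idealI f := by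
        rw [mem_idealI]
        have e : (heckeAlgebra.T hℓ hℓN (Set.notMem_empty ℓ)
            - algebraMap ℤ (CuspForm.heckeAlgebra N 2 (∅ : Set ℕ)) (a ℓ)).1 f
            = CuspForm.heckeTLin 2 hℓ hℓN f
              - (algebraMap ℤ (CuspForm.heckeAlgebra N 2 (∅ : Set ℕ)) (a ℓ)).1 f := rfl
        rw [e, algebraMap_apply_f]
        exact gen_cong_T heig f af haf hcong hℓ hℓN
      have := hQmem _ hmem
      rw [map_sub, hψint] at this
      exact this

end Fermat.Agent.S49
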