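import Fermat.Statements.S18
import Fermat.Agent.S18.Core
import Fermat.Agent.S18.ModFF

set_option autoImplicit false
open ModularCurve

namespace Fermat.Agent.S18

open AlgebraicCurve in
/-- the residue field of a valuation subring over `ℓ` has characteristic `ℓ` -/
theorem natCast_residue_ne_zero {ℓ : ℕ} [Fact ℓ.Prime]
    (A : ValuationSubring (AlgebraicClosure ℚ)) (hA : A.LiesOverPrime ℓ) (m : ℕ) (hm : ¬ ℓ ∣ m) :
    (m : IsLocalRing.ResidueField A) ≠ 0 := by
  have hℓ : (ℓ : IsLocalRing.ResidueField A) = 0 := by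
    obtain ⟨ha, hmem⟩ := ValuationSubring.mem_nonunits_iff_exists_mem_maximalIdeal.mp
      (show ((ℓ : ℕ) : AlgebraicClosure ℚ) ∈ A.nonunits from hA)
    have h2 : (⟨((ℓ : ℕ) : AlgebraicClosure ℚ), ha⟩ : A) = ((ℓ : ℕ) : A) := Subtype.ext (by simp)
    rw [h2] at hmem
    have h3 := (IsLocalRing.residue_eq_zero_iff ((ℓ : ℕ) : A)).mpr hmem
    simpa using h3
  intro h0
  have hcop : Nat.Coprime ℓ m := (Nat.Prime.coprime_iff_not_dvd (Fact.out)).mpr hm
  obtain ⟨a, b, hab⟩ : ∃ a b : ℤ, a * ℓ + b * m = 1 := by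
    have := Nat.gcd_eq_gcd_ab ℓ m
    rw [hcop.gcd_eq_one] at this
    exact ⟨Nat.gcdA ℓ m, Nat.gcdB ℓ m, by push_cast at this; linarith⟩
  have := congrArg (Int.cast : ℤ → IsLocalRing.ResidueField A) hab
  push_cast at this
  rw [hℓ, h0] at this
  simp at this

theorem result (N : ℕ) [NeZero N] {ℓ : ℕ}
    [Fact ℓ.Prime] (hℓN : ¬ ℓ ∣ N) (A : ValuationSubring (AlgebraicClosure ℚ)) (hA : A.LiesOverPrime ℓ)
    (h : ModularCurve.ReductionInputsModL A N) (m : ℕ) (hm : ¬ ℓ ∣ m) (z : ModularCurve.JZero N)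
    (hmz : m • z = 0) (hz : ModularCurve.reductionModL A N z = 0) :
    z = 0 := by
  obtain ⟨D, rfl⟩ := AlgebraicCurve.Pic0.mk_surjective z
  rw [reductionModL_mk h] at hz
  have hr := isPlaceReductionModL_placeReductionModL h
  obtain ⟨hdeg, hdiv, hGauss, g, hRiem, Q, hQ, hns, τ, hτ, Pstar, hPstar⟩ :=
    modff N hℓN A hA (placeReductionModL h) hr
  have h1 : m • (D : AlgebraicCurve.Divisor (AlgebraicClosure ℚ) (modularFunctionFieldBar N)) ∈
      AlgebraicCurve.Divisor.principal (K := AlgebraicClosure ℚ) (F := modularFunctionFieldBar N) := by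
    have : AlgebraicCurve.Pic0.mk (m • D) = 0 := hmz
    have h2 := (QuotientAddGroup.eq_zero_iff (m • D)).mp this
    simpa [AddSubgroup.mem_addSubgroupOf] using h2
  have h2 : Finsupp.mapDomain (placeReductionModL h)
      (D : AlgebraicCurve.Divisor (AlgebraicClosure ℚ) (modularFunctionFieldBar N)) ∈
      AlgebraicCurve.Divisor.principal (K := IsLocalRing.ResidueField A)
        (F := modularFunctionFieldFullC (IsLocalRing.ResidueField A) N) := by
    have h3 := (QuotientAddGroup.eq_zero_iff _).mp hz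
    simpa [AddSubgroup.mem_addSubgroupOf] using h3
  have key := core A (Fb N) (Ft A N) (placeReductionModL h) hr.2 hdeg hdiv hGauss g hRiem Q hQ hns τ hτ
    Pstar hPstar m (natCast_residue_ne_zero A hA m hm) D.1 D.2 h1 h2
  exact (QuotientAddGroup.eq_zero_iff D).mpr (by simpa [AddSubgroup.mem_addSubgroupOf] using key)

end Fermat.Agent.S18
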