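import Fermat.Statements.S37
import Fermat.Agent.S37.Top
import Fermat.Agent.S37.Gal
import Fermat.Agent.S37.ES
import Fermat.Agent.S37.Leaf.RIG
import Fermat.Agent.S37.Leaf.RIR
import Fermat.Agent.S37.Leaf.S18

set_option autoImplicit false

namespace Fermat.Agent.S37

open ModularCurve AlgebraicCurve

set_option synthInstance.maxHeartbeats 400000 in
/-- `ReductionInputsModL A N` for `ℓ ∤ N` (leaves RI-R and RI-G). -/
theorem reductionInputsModL (N : ℕ) [NeZero N] (ℓ : ℕ) (hℓ : ℓ.Prime) (hℓN : ¬ ℓ ∣ N)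
    (A : ValuationSubring (AlgebraicClosure ℚ)) (hA : A.LiesOverPrime ℓ) :
    ReductionInputsModL A N := by
  obtain ⟨r, hr⟩ := exists_isPlaceReductionModL N ℓ hℓ hℓN A hA
  exact ⟨r, hr, principalGeneratedByIntegral N ℓ hℓ hℓN A hA⟩

set_option synthInstance.maxHeartbeats 400000 in
/-- (i): the reduction map is invariant under inertia. -/
theorem red_inertia (N : ℕ) [NeZero N] (A : ValuationSubring (AlgebraicClosure ℚ))
    (h : ReductionInputsModL A N)
    (σ : AlgebraicClosure ℚ ≃ₐ[ℚ] AlgebraicClosure ℚ) (hσ : σ ∈ A.inertiaSubgroupIn ℚ)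
    (x : JZero N) : reductionModL A N (σ • x) = reductionModL A N x := by
  obtain ⟨τ', hτ', rfl⟩ := hσ
  have h1 : MulSemiringAction.toRingAut (A.decompositionSubgroup ℚ) (IsLocalRing.ResidueField A)
      τ' = 1 := MonoidHom.mem_ker.mp hτ'
  have h2 := red_galois N A h (τ' : AlgebraicClosure ℚ ≃ₐ[ℚ] AlgebraicClosure ℚ) τ'.2 x
  rw [show (⟨(τ' : AlgebraicClosure ℚ ≃ₐ[ℚ] AlgebraicClosure ℚ), τ'.2⟩ :
    A.decompositionSubgroup ℚ) = τ' from rfl, h1, map_one, one_smul] at h2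
  exact h2

set_option synthInstance.maxHeartbeats 400000 in
/-- (ii): the reduction map kills the Eichler–Shimura relation of a Frobenius element. -/
theorem red_frobenius_relation (N : ℕ) [NeZero N] (ℓ : ℕ) (hℓ : ℓ.Prime) (hℓN : ¬ ℓ ∣ N)
    (A : ValuationSubring (AlgebraicClosure ℚ)) (hA : A.LiesOverPrime ℓ)
    (h : ReductionInputsModL A N)
    (σ : AlgebraicClosure ℚ ≃ₐ[ℚ] AlgebraicClosure ℚ) (hσ : A.IsFrobeniusAt σ ℓ) (x : JZero N) :
    reductionModL A N (σ • σ • x - heckeOperatorBar N ⟨ℓ, hℓ⟩ (σ • x) + ℓ • x) = 0 := by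
  obtain ⟨hσD, hF⟩ := hσ
  set τ : IsLocalRing.ResidueField A ≃+* IsLocalRing.ResidueField A :=
    MulSemiringAction.toRingAut (A.decompositionSubgroup ℚ) (IsLocalRing.ResidueField A)
      ⟨σ, hσD⟩ with hτdef
  have hτ : ∀ y, τ y = y ^ ℓ := fun y => hF y
  have hg : ∀ y : JZero N, reductionModL A N (σ • y) =
      coeffAut (IsLocalRing.ResidueField A) N τ • reductionModL A N y :=
    fun y => red_galois N A h σ hσD y
  have hT := red_hecke N ℓ hℓ hℓN A hA h τ hτ (σ • x)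
  rw [map_add, map_sub, map_nsmul, hT, hg (σ • x), hg x, inv_smul_smul]
  abel

/-- **S37** -/
theorem result (N p : ℕ) [NeZero N] (hcomm : ModularCurve.HeckeOperatorsCommuteBar N) : letI := ModularCurve.heckeModuleBar N; ∀ (_ : SMulCommClass (AlgebraicClosure ℚ ≃ₐ[ℚ] AlgebraicClosure ℚ) ModularCurve.HeckeAlg (ModularCurve.JZero N)), ModularCurve.SpecializationExists (K := ℚ) (L := AlgebraicClosure ℚ) N p (ModularCurve.JZero N) := by
  apply result_of_map N p hcomm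
  intro ℓ hℓ hNp A hA
  have hℓN : ¬ ℓ ∣ N := fun hd => hNp (Dvd.dvd.mul_right hd p)
  have hℓp : ¬ ℓ ∣ p := fun hd => hNp (Dvd.dvd.mul_left hd N)
  have h : ReductionInputsModL A N := reductionInputsModL N ℓ hℓ hℓN A hA
  refine ⟨JZeroC (IsLocalRing.ResidueField A) N, inferInstance, reductionModL A N, ?_, ?_, ?_⟩
  · intro σ hσ x
    exact red_inertia N A h σ hσ x
  · intro σ hσ x
    exact red_frobenius_relation N ℓ hℓ hℓN A hA h σ hσ x
  · rintro x ⟨n, hn⟩ hx
    have : Fact ℓ.Prime := ⟨hℓ⟩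
    exact s18 N hℓN A hA h (p ^ n) (fun hd => hℓp (hℓ.dvd_of_dvd_pow hd)) x hn hx

end Fermat.Agent.S37
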