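-- Statement S27 (row 26).  Final assembly (helper242) of the compact-group route of helper9506:
--   * complex case: Spine (helper9686) + B-MAIN (helper9326) + package A (helper8976 skeleton),
--     `Fermat.Agent.S27.Spine.countOverComplex`;
--   * Lefschetz transfer to any algebraically closed field of characteristic 0: package F
--     (helper2906 / helper8666), `Fermat.Agent.S27.Lef.lefschetz_transfer`;
--   * T0 (`IsCurveOver` + `EssFiniteType` ⟹ function field): package A, `A.exists_transcendental_finite`.
import Fermat.Statements.S27
import Fermat.Agent.S27.Spine.Count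
import Fermat.Agent.S27.Lef.Main

set_option autoImplicit false
set_option autoImplicit false
open AlgebraicCurve
open AlgebraicCurve AlgebraicCurve.Pic0

namespace Fermat.Agent.S27

theorem result
    (K F : Type*) [Field K] [Field F] [Algebra K F] [IsAlgClosed K] [CharZero K]
    [IsCurveOver K F] [Algebra.EssFiniteType K F]
    (ℓ : ℕ) [Fact ℓ.Prime] (k : ℕ) :
    Nat.card (Pic0.torsion K F (ℓ ^ k)) = ℓ ^ (2 * genusFF K F * k) := by
  have hFF : Lef.IsFunctionField K F := A.exists_transcendental_finite
  have hpos : 0 < ℓ ^ k := pow_pos (Fact.out : ℓ.Prime).pos k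
  rw [Lef.lefschetz_transfer Spine.countOverComplex hFF (ℓ ^ k) hpos, ← pow_mul]
  congr 1
  ring

end Fermat.Agent.S27
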