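import Fermat.Statements.S02

set_option autoImplicit false
open FreyPackage

namespace Fermat.Agent.S02

/-- Coprime case, with `b` even: produce a Frey package. -/
theorem frey_of_coprime_even {a b c : ℤ} (ha : a ≠ 0) (hb : b ≠ 0) (hc : c ≠ 0)
    (hab : gcd a b = 1) (p : ℕ) (pp : p.Prime) (hp5 : 5 ≤ p) (H : a ^ p + b ^ p = c ^ p)
    (hb2 : (2 : ℤ) ∣ b) : Nonempty FreyPackage := by
  have p_odd : Odd p := pp.odd_of_ne_two (by omega)
  have hb2' : (b : ZMod 2) = 0 := (ZMod.intCast_zmod_eq_zero_iff_dvd b 2).2 hb2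
  -- a is odd
  have ha_odd : ¬ (2 : ℤ) ∣ a := by
    intro h2a
    have h2 : (2 : ℤ) ∣ gcd a b := dvd_gcd h2a hb2
    rw [hab] at h2
    norm_num at h2
  have hmod : a % 4 = 1 ∨ a % 4 = 3 := by
    have : a % 2 = 1 := by omega
    omega
  rcases hmod with h1 | h3
  · -- a ≡ 1 mod 4 : negate everything
    refine ⟨⟨-a, -b, -c, neg_ne_zero.2 ha, neg_ne_zero.2 hb, neg_ne_zero.2 hc, p, pp, hp5, ?_, ?_, ?_, ?_⟩⟩
    · rw [p_odd.neg_pow, p_odd.neg_pow, p_odd.neg_pow, ← H]; ring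
    · rw [gcd_neg, neg_gcd]; exact hab
    · have h4 : ((-a : ℤ) : ZMod 4) = ((3 : ℤ) : ZMod 4) := by
        rw [ZMod.intCast_eq_intCast_iff_dvd_sub]
        omega
      simpa using h4
    · simp [hb2']
  · refine ⟨⟨a, b, c, ha, hb, hc, p, pp, hp5, H, hab, ?_, hb2'⟩⟩
    have h4 : ((a : ℤ) : ZMod 4) = ((3 : ℤ) : ZMod 4) := by
      rw [ZMod.intCast_eq_intCast_iff_dvd_sub]
      omega
    simpa using h4

theorem frey_of_coprime {a b c : ℤ} (ha : a ≠ 0) (hb : b ≠ 0) (hc : c ≠ 0)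
    (hab : gcd a b = 1) (p : ℕ) (pp : p.Prime) (hp5 : 5 ≤ p) (H : a ^ p + b ^ p = c ^ p) :
    Nonempty FreyPackage := by
  have p_odd : Odd p := pp.odd_of_ne_two (by omega)
  have hp0 : p ≠ 0 := by omega
  by_cases hb2 : (2 : ℤ) ∣ b
  · exact frey_of_coprime_even ha hb hc hab p pp hp5 H hb2
  by_cases ha2 : (2 : ℤ) ∣ a
  · refine frey_of_coprime_even hb ha hc ?_ p pp hp5 ?_ ha2
    · rw [gcd_comm]; exact hab
    · rw [add_comm]; exact H
  · -- both odd, so c is even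
    have hc2 : (2 : ℤ) ∣ c := by
      have ha' : Odd a := by rw [Int.odd_iff]; omega
      have hb' : Odd b := by rw [Int.odd_iff]; omega
      have hcp : Even (c ^ p) := by
        rw [← H]
        exact (ha'.pow).add_odd (hb'.pow)
      have : Even c := (Int.even_pow.1 hcp).1
      exact even_iff_two_dvd.1 this
    have hac : gcd a c = 1 := by
      rw [← gcdab_eq_gcdac (Nat.pos_of_ne_zero hp0) H]; exact hab
    refine frey_of_coprime_even ha (neg_ne_zero.2 hc) (neg_ne_zero.2 hb) ?_ p pp hp5 ?_ ((dvd_neg).2 hc2)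
    · rw [gcd_neg]; exact hac
    · rw [p_odd.neg_pow, p_odd.neg_pow, ← H]; ring

theorem result (a b c : ℤ) (ha : a ≠ 0) (hb : b ≠ 0) (hc : c ≠ 0) (p : ℕ) (pp : p.Prime) (hp5 : 5 ≤ p) (H : a ^ p + b ^ p = c ^ p) : Nonempty FreyPackage := by
  have hp0 : p ≠ 0 := by omega
  -- divide out by the gcd
  set d : ℤ := gcd a b with hd
  have hd0 : d ≠ 0 := by
    intro h
    rw [hd] at h
    exact ha ((gcd_eq_zero_iff a b).1 h).1
  obtain ⟨a', ha'⟩ : d ∣ a := gcd_dvd_left a b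
  obtain ⟨b', hb'⟩ : d ∣ b := gcd_dvd_right a b
  have hdc : d ∣ c := by
    rw [← Int.pow_dvd_pow_iff hp0, ← H]
    exact dvd_add (pow_dvd_pow_of_dvd (gcd_dvd_left a b) p) (pow_dvd_pow_of_dvd (gcd_dvd_right a b) p)
  obtain ⟨c', hc'⟩ := hdc
  have ha'0 : a' ≠ 0 := by rintro rfl; simp at ha'; exact ha ha'
  have hb'0 : b' ≠ 0 := by rintro rfl; simp at hb'; exact hb hb'
  have hc'0 : c' ≠ 0 := by rintro rfl; simp at hc'; exact hc hc'
  have hcop : gcd a' b' = 1 := by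
    have h1 : gcd a b = normalize d * gcd a' b' := by
      rw [ha', hb', gcd_mul_left]
    have h2 : normalize d = d := by rw [hd]; exact normalize_gcd a b
    rw [h2, ← hd] at h1
    have h3 : d * gcd a' b' = d * 1 := by rw [mul_one]; exact h1.symm
    exact mul_left_cancel₀ hd0 h3
  have H' : a' ^ p + b' ^ p = c' ^ p := by
    have h1 : d ^ p * (a' ^ p + b' ^ p) = d ^ p * c' ^ p := by
      rw [mul_add, ← mul_pow, ← mul_pow, ← mul_pow, ← ha', ← hb', ← hc']; exact H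
    exact mul_left_cancel₀ (pow_ne_zero p hd0) h1
  exact frey_of_coprime ha'0 hb'0 hc'0 hcop p pp hp5 H'

end Fermat.Agent.S02
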