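import Fermat.Statements.S05
import Fermat.Agent.S05.Main

set_option autoImplicit false
open WeierstrassCurve WeierstrassCurve.Affine WeierstrassCurve.Affine.Point
open CuspForm ModularFormClass UpperHalfPlane
open FreyPackage

namespace Fermat.Agent.S05

theorem result (P : FreyPackage) {q : ℕ} (hq : q.Prime) (hq2 : q ≠ 2) (hqp : q ≠ P.p) : P.GaloisRepUnramifiedAt q := by
  intro A hA σ hσ x
  apply Subtype.ext
  have hqv : A.valuation (q : AlgebraicClosure ℚ) < 1 := A.mem_nonunits_iff.mp hA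
  have hσ' : ∀ z : AlgebraicClosure ℚ, A.valuation z ≤ 1 → A.valuation (σ z - z) < 1 :=
    inertia_congr A σ hσ
  have hx : P.p • x.1 = 0 := by
    have := x.2
    rw [Submodule.mem_torsionBy_iff] at this
    rw [← natCast_zsmul]
    exact this
  have hp2 : P.p ≠ 2 := by have := P.hp5; omega
  have hqZ : Prime (q : ℤ) := Nat.prime_iff_prime_int.mp hq
  have hFLT : P.a ^ P.p + P.b ^ P.p = P.c ^ P.p := P.hFLT
  have hE₂ : 4 * P.freyCurve.a₂ + 1 = ((P.b ^ P.p : ℤ) : ℚ) - ((P.a ^ P.p : ℤ) : ℚ) := by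
    simp only [FreyPackage.freyCurve]; push_cast; ring
  have hE₄ : 16 * P.freyCurve.a₄ = -(((P.a ^ P.p : ℤ) : ℚ) * ((P.b ^ P.p : ℤ) : ℚ)) := by
    simp only [FreyPackage.freyCurve]; push_cast; ring
  -- no prime divides two of `a`, `b`, `c`
  have hab : ¬((q : ℤ) ∣ P.a ∧ (q : ℤ) ∣ P.b) := by
    rintro ⟨h1, h2⟩
    have := dvd_gcd h1 h2
    rw [P.hgcdab] at this
    exact hqZ.not_dvd_one this
  have hac : ¬((q : ℤ) ∣ P.a ∧ (q : ℤ) ∣ P.c) := by
    rintro ⟨h1, h2⟩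
    have := dvd_gcd h1 h2
    rw [P.hgcdac] at this
    exact hqZ.not_dvd_one this
  have hpow : ∀ z : ℤ, (q : ℤ) ∣ z ^ P.p ↔ (q : ℤ) ∣ z := fun z =>
    ⟨fun h => hqZ.dvd_of_dvd_pow h, fun h => dvd_pow h P.hp0⟩
  change Point.map (W' := P.freyCurve) σ.toAlgHom x.1 = x.1
  by_cases hc : (q : ℤ) ∣ P.c
  · -- multiplicative reduction, node at `X = a ^ p`
    have ha : ¬ (q : ℤ) ∣ P.a := fun h => hac ⟨h, hc⟩
    refine frey_fixed_int A P.freyCurve rfl rfl rfl (P.a ^ P.p) (P.b ^ P.p) (-(P.a ^ P.p))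
      (2 * P.a ^ P.p + P.b ^ P.p) (P.a ^ P.p * (P.a ^ P.p + P.b ^ P.p)) hE₂ hE₄ (by ring) (by ring)
      (by ring) σ hσ' hq hqv hq2 P.pp hp2 hqp (Or.inr ⟨?_, ?_, P.a * P.c, Or.inl ?_⟩) _ hx
    · intro h
      have h1 : (q : ℤ) ∣ P.a ^ P.p + P.b ^ P.p := by rw [hFLT]; exact (hpow _).mpr hc
      have h2 : (q : ℤ) ∣ P.a ^ P.p := by
        have : P.a ^ P.p = (2 * P.a ^ P.p + P.b ^ P.p) - (P.a ^ P.p + P.b ^ P.p) := by ring
        rw [this]; exact dvd_sub h h1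
      exact ha ((hpow _).mp h2)
    · rw [hFLT]
      exact dvd_mul_of_dvd_right ((hpow _).mpr hc) _
    · rw [hFLT, mul_pow]
  · by_cases hab' : (q : ℤ) ∣ P.a ∨ (q : ℤ) ∣ P.b
    · -- multiplicative reduction, node at `X = 0`
      refine frey_fixed_int A P.freyCurve rfl rfl rfl (P.a ^ P.p) (P.b ^ P.p) 0
        (P.b ^ P.p - P.a ^ P.p) (-(P.a ^ P.p * P.b ^ P.p)) hE₂ hE₄ (by ring) (by ring)
        (by ring) σ hσ' hq hqv hq2 P.pp hp2 hqp (Or.inr ⟨?_, ?_, P.a * P.b, Or.inr ?_⟩) _ hx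
      · intro h
        rcases hab' with ha | hb
        · have hb : ¬ (q : ℤ) ∣ P.b := fun hb => hab ⟨ha, hb⟩
          apply hb
          apply (hpow _).mp
          have : P.b ^ P.p = (P.b ^ P.p - P.a ^ P.p) + P.a ^ P.p := by ring
          rw [this]; exact dvd_add h ((hpow _).mpr ha)
        · have ha : ¬ (q : ℤ) ∣ P.a := fun ha => hab ⟨ha, hb⟩
          apply ha
          apply (hpow _).mp
          have : P.a ^ P.p = P.b ^ P.p - (P.b ^ P.p - P.a ^ P.p) := by ring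
          rw [this]; exact dvd_sub ((hpow _).mpr hb) h
      · rw [dvd_neg]
        rcases hab' with ha | hb
        · exact dvd_mul_of_dvd_left ((hpow _).mpr ha) _
        · exact dvd_mul_of_dvd_right ((hpow _).mpr hb) _
      · rw [mul_pow]
    · -- good reduction
      have ha : ¬ (q : ℤ) ∣ P.a := fun h => hab' (Or.inl h)
      have hb : ¬ (q : ℤ) ∣ P.b := fun h => hab' (Or.inr h)
      refine frey_fixed_int A P.freyCurve rfl rfl rfl (P.a ^ P.p) (P.b ^ P.p) 0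
        (P.b ^ P.p - P.a ^ P.p) (-(P.a ^ P.p * P.b ^ P.p)) hE₂ hE₄ (by ring) (by ring)
        (by ring) σ hσ' hq hqv hq2 P.pp hp2 hqp (Or.inl ?_) _ hx
      have : -(P.a ^ P.p * P.b ^ P.p) * ((P.b ^ P.p - P.a ^ P.p) ^ 2 - 4 * -(P.a ^ P.p * P.b ^ P.p))
          = -(P.a ^ P.p * P.b ^ P.p * (P.c ^ P.p) ^ 2) := by
        rw [← hFLT]; ring
      rw [this, dvd_neg]
      intro h
      rcases hqZ.dvd_or_dvd h with h | h
      · rcases hqZ.dvd_or_dvd h with h | h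
        · exact ha ((hpow _).mp h)
        · exact hb ((hpow _).mp h)
      · exact hc ((hpow _).mp (hqZ.dvd_of_dvd_pow h))

end Fermat.Agent.S05
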