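import Fermat.Statements.S07
import Fermat.Prelude.Thm_ModularForm_sturm_bound_Gamma0

set_option autoImplicit false
open WeierstrassCurve WeierstrassCurve.Affine WeierstrassCurve.Affine.Point
open CuspForm ModularFormClass UpperHalfPlane
open ModularForm

namespace Fermat.Agent.S07

open scoped MatrixGroups

/-- The index of `Γ₀(2)` in `SL(2, ℤ)` is at most `4` (it is in fact `3`). -/
theorem index_Gamma0_two_le : (CongruenceSubgroup.Gamma0 2).index ≤ 4 := by
  classical
  have hφ : Function.Injective
      (fun q : SL(2, ℤ) ⧸ CongruenceSubgroup.Gamma0 2 =>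
        ((((q.out 0 0 : ℤ)) : ZMod 2), (((q.out 1 0 : ℤ)) : ZMod 2))) := by
    intro q1 q2 h
    simp only [Prod.mk.injEq] at h
    obtain ⟨h0, h1⟩ := h
    rw [← QuotientGroup.out_eq' q1, ← QuotientGroup.out_eq' q2, QuotientGroup.eq,
      CongruenceSubgroup.Gamma0_mem]
    have key : ((q1.out⁻¹ * q2.out : SL(2, ℤ)) 1 0 : ℤ)
        = - (q1.out 1 0) * (q2.out 0 0) + (q1.out 0 0) * (q2.out 1 0) := by
      rw [Matrix.SpecialLinearGroup.coe_mul, Matrix.SpecialLinearGroup.coe_inv,
        Matrix.adjugate_fin_two, Matrix.mul_apply, Fin.sum_univ_two]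
      simp
    rw [key]
    push_cast
    rw [h0, h1]
    ring
  have hcard := Nat.card_le_card_of_injective _ hφ
  have h4 : Nat.card (ZMod 2 × ZMod 2) = 4 := by
    simp
  rw [h4] at hcard
  exact hcard

theorem result (f : CuspForm (CongruenceSubgroup.Gamma0 2) 2) : f = 0 := by
  -- view `f` as a modular form
  let F : ModularForm (CongruenceSubgroup.Gamma0 2) 2 :=
    { toSlashInvariantForm := f.toSlashInvariantForm
      holo' := f.holo'
      bdd_at_cusps' := fun hc γ hγ => (f.zero_at_cusps' hc γ hγ).isBoundedAtImInfty }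
  have hF : F = 0 := by
    refine ModularForm.sturm_bound_Gamma0 2 F ?_
    intro n hn
    have hidx := index_Gamma0_two_le
    have hn0 : n = 0 := by
      have h2 : ((2 : ℤ) * ((CongruenceSubgroup.Gamma0 2).index : ℤ)).toNat / 12 = 0 := by
        have : ((2 : ℤ) * ((CongruenceSubgroup.Gamma0 2).index : ℤ)).toNat
            = 2 * (CongruenceSubgroup.Gamma0 2).index := by
          have : (2 : ℤ) * ((CongruenceSubgroup.Gamma0 2).index : ℤ)
              = ((2 * (CongruenceSubgroup.Gamma0 2).index : ℕ) : ℤ) := by push_cast; ring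
          rw [this, Int.toNat_natCast]
        rw [this]
        omega
      omega
    subst hn0
    have h1 : (1 : ℝ) ∈ (CongruenceSubgroup.Gamma0 2 : Subgroup (GL (Fin 2) ℝ)).strictPeriods := by
      simp [CongruenceSubgroup.strictPeriods_Gamma0]
    have := CuspFormClass.qExpansion_coeff_zero f (h := 1) one_pos h1
    exact this
  ext z
  have hz : F z = 0 := by rw [hF]; rfl
  exact hz

end Fermat.Agent.S07
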