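-- Statement S08: every weight-2 cusp form of level Γ₀(1) is zero.
import Fermat.Statements.S08

set_option autoImplicit false
open WeierstrassCurve WeierstrassCurve.Affine WeierstrassCurve.Affine.Point
open CuspForm ModularFormClass UpperHalfPlane
open ModularForm

namespace Fermat.Agent.S08

open scoped MatrixGroups in
theorem result (f : CuspForm (CongruenceSubgroup.Gamma0 1) 2) : f = 0 := by
  have h1 : (CongruenceSubgroup.Gamma0 1 : Subgroup (Matrix.SpecialLinearGroup (Fin 2) ℤ)) = ⊤ := by
    ext g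
    simp only [CongruenceSubgroup.Gamma0_mem, Subgroup.mem_top, iff_true]
    exact Subsingleton.elim _ _
  have h2 : Subgroup.map (Matrix.SpecialLinearGroup.mapGL ℝ) (CongruenceSubgroup.Gamma0 1) = 𝒮ℒ := by
    rw [h1, ← MonoidHom.range_eq_map]
  have key : ∀ (Γ : Subgroup (GL (Fin 2) ℝ)), Γ = 𝒮ℒ → ∀ g : CuspForm Γ 2, g = 0 := by
    intro Γ hΓ
    subst hΓ
    exact rank_zero_iff_forall_zero.mp (CuspForm.rank_eq_zero_of_weight_lt_twelve (by norm_num))
  exact key _ h2 f

end Fermat.Agent.S08
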