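-- Statement S10: the mod-p representation of the Frey curve has no Galois-stable cofixed line
-- when p ∈ {5, 7, 13}.  Proof: a Frey package with p ∈ {5, 7, 13} contradicts Fermat's Last
-- Theorem for the regular primes 5, 7, 13 (Kummer: Sophie Germain for case I; descent in the
-- principal ideal domain ℤ[ζ_p] plus Kummer's lemma for case II).
import Fermat.Statements.S10
import Fermat.Agent.S10.SophieGermain
import Fermat.Agent.S10.Reduction
import Fermat.Agent.S10.CaseII
import Fermat.Agent.S10.KummerSmall
import Fermat.Agent.S10.PID7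
import Fermat.Agent.S10.PID13

set_option autoImplicit false
open WeierstrassCurve WeierstrassCurve.Affine WeierstrassCurve.Affine.Point
open CuspForm ModularFormClass UpperHalfPlane
open FreyPackage

namespace Fermat.Agent.S10

/-- Fermat's Last Theorem over `ℤ` for the exponent `5`. -/
theorem flt_int_five : FermatLastTheoremWith ℤ 5 := by
  have : Fact (Nat.Prime 5) := ⟨by norm_num⟩
  have : IsCyclotomicExtension {5} ℚ (CyclotomicField 5 ℚ) :=
    CyclotomicField.isCyclotomicExtension 5 ℚ
  have : IsPrincipalIdealRing (NumberField.RingOfIntegers (CyclotomicField 5 ℚ)) :=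
    IsCyclotomicExtension.Rat.five_pid (CyclotomicField 5 ℚ)
  exact flt_int_of_cases (by norm_num) (by decide)
    (fun x y z hxy hyz hzx h => caseI_five hxy hyz hzx h)
    (CaseIIDescent.caseII_of_pid_of_kummer (p := 5) (CyclotomicField 5 ℚ) (by norm_num)
      (kummerProp_5 (CyclotomicField 5 ℚ)))

/-- Fermat's Last Theorem over `ℤ` for the exponent `7`. -/
theorem flt_int_seven : FermatLastTheoremWith ℤ 7 := by
  have : Fact (Nat.Prime 7) := ⟨by norm_num⟩
  have : IsCyclotomicExtension {7} ℚ (CyclotomicField 7 ℚ) :=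
    CyclotomicField.isCyclotomicExtension 7 ℚ
  have : IsPrincipalIdealRing (NumberField.RingOfIntegers (CyclotomicField 7 ℚ)) :=
    seven_pid (CyclotomicField 7 ℚ)
  exact flt_int_of_cases (by norm_num) (by decide)
    (fun x y z hxy hyz hzx h => caseI_seven hxy hyz hzx h)
    (CaseIIDescent.caseII_of_pid_of_kummer (p := 7) (CyclotomicField 7 ℚ) (by norm_num)
      (kummerProp_7 (CyclotomicField 7 ℚ)))

/-- Fermat's Last Theorem over `ℤ` for the exponent `13`. -/
theorem flt_int_thirteen : FermatLastTheoremWith ℤ 13 := by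
  have : Fact (Nat.Prime 13) := ⟨by norm_num⟩
  have : IsCyclotomicExtension {13} ℚ (CyclotomicField 13 ℚ) :=
    CyclotomicField.isCyclotomicExtension 13 ℚ
  have : IsPrincipalIdealRing (NumberField.RingOfIntegers (CyclotomicField 13 ℚ)) :=
    thirteen_pid (CyclotomicField 13 ℚ)
  exact flt_int_of_cases (by norm_num) (by decide)
    (fun x y z hxy hyz hzx h => caseI_thirteen hxy hyz hzx h)
    (CaseIIDescent.caseII_of_pid_of_kummer (p := 13) (CyclotomicField 13 ℚ) (by norm_num)
      (kummerProp_13 (CyclotomicField 13 ℚ)))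

theorem result (P : FreyPackage) (hp : P.p = 5 ∨ P.p = 7 ∨ P.p = 13) : ¬ HasGaloisStableCofixedLine (K := AlgebraicClosure ℚ) ℚ P.freyCurve P.p := by
  exfalso
  have hflt : FermatLastTheoremWith ℤ P.p := by
    rcases hp with h | h | h
    · rw [h]; exact flt_int_five
    · rw [h]; exact flt_int_seven
    · rw [h]; exact flt_int_thirteen
  exact hflt P.a P.b P.c P.ha0 P.hb0 P.hc0 P.hFLT

end Fermat.Agent.S10
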