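-- Statement S14 (row 13): ExtVanishingCts p for every prime p ≥ 3.
-- Assembly of the Kummer + Thaine route (skeleton of helper494; see Fermat/Agent/S14/Main.lean).
import Fermat.Statements.S14
import Fermat.Agent.S14.Main

set_option autoImplicit false
open ExtCitation

namespace Fermat.Agent.S14

theorem result {p : ℕ} [Fact p.Prime] (h3 : 3 ≤ p) :
    ExtCitation.ExtVanishingCts p :=
  extVanishingCts h3

end Fermat.Agent.S14
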