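import Fermat.Statements.S20
import Fermat.Agent.S20.Basic
import Fermat.Agent.S20.Arith
import Fermat.Agent.S20.CuspCount
import Fermat.Agent.S20.FixedPoints
import Fermat.Agent.S20.IndexPsi
import Fermat.Agent.S20.FreeGen
import Fermat.Agent.S20.BasisFacts
import Fermat.Agent.S20.Sep
import Fermat.Agent.S20.RankInv
import Fermat.Agent.S20.CuspMatrix
import Fermat.Agent.S20.Duality
import Fermat.Agent.S20.Elliptic
import Fermat.Agent.S20.Bdry3093

/-!
S20: `dim S₂(Γ₀(N)) = genus formula`, honest route without Riemann-Roch (free module theorem for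
`⨁ M_k(Γ₀(N))` over level one forms, skeleton v3 of helper8180).  Assembly by helper3093.

Pieces (all complete, raw-data statements on helper8180's `Basic.lean`):
* `Basic`, `Arith` (helper8180); `CuspCount`, `FixedPoints`, `IndexPsi` (helper6200);
* `FreeAbs`, `FreeGen` (helper3257); `CardLe`, `BasisFacts` (helper7700); `Sep` (helper4280);
* `DerivBdd`, `DetDeriv`, `DetODE`, `DiscODE`, `SerreClosure` (helper5900), `RankInv` (helper8000);
* `CuspTwist`, `CuspMatrix` (helper5000); `Duality` (helper7580); `Elliptic` (helper9006);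
* `Bdry3093` (helper3093).
-/

set_option autoImplicit false
open CuspForm

open UpperHalfPlane ModularForm Filter Topology
open scoped MatrixGroups ModularForm Manifold

namespace Fermat.Agent.S20

section core

variable {N : ℕ} [NeZero N] {ι : Type} [Fintype ι] [DecidableEq ι] (wt : ι → ℤ)
  (F : (i : ι) → ModularForm (G0 N) (wt i))

/-- level one forms of negative weight / weight zero, `finrank` form -/
theorem finrank_levelOne_sub_ten (w : ℤ) (h0 : 0 ≤ w) (h10 : w ≤ 10) :
    Module.finrank ℂ (ModularForm 𝒮ℒ (2 + w - 12)) = if w = 10 then 1 else 0 := by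
  split_ifs with h
  · subst h
    have := Bdry.finrank_levelOne_nat 0 (by decide)
    simpa using this
  · have hneg : 2 + w - 12 < 0 := by omega
    have := ModularForm.levelOne_neg_weight_rank_zero hneg
    unfold Module.finrank
    rw [this]
    simp

/-- the core identity for a free basis given as raw data -/
theorem twelve_mul_finrank_of
    (span : ∀ (k : ℤ) (f : ModularForm (G0 N) k),
      ∃ r : (i : ι) → ModularForm 𝒮ℒ (k - wt i), ∀ z, f z = ∑ i, r i z * F i z)
    (indep : ∀ (k : ℤ) (r : (i : ι) → ModularForm 𝒮ℒ (k - wt i)),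
      (∀ z, ∑ i, r i z * F i z = 0) → ∀ i, r i = 0) :
    (12 : ℤ) * Module.finrank ℂ (CuspForm (G0 N) 2) =
      12 + Nat.card (Q N) - 3 * Nat.card {x : Q N // ModularGroup.S • x = x}
        - 4 * Nat.card {x : Q N // (ModularGroup.S * ModularGroup.T) • x = x}
        - 6 * Nat.card (MulAction.orbitRel.Quotient (Subgroup.zpowers ModularGroup.T) (Q N)) := by
  have hnn : ∀ i, 0 ≤ wt i := wt_nonneg_of_indep N wt F indep
  have hev : ∀ i, Even (wt i) := wt_even_of_indep N wt F indep
  have h0 : Nat.card {i : ι // wt i = 0} = 1 := card_wt_zero_of_basis N wt F span indep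
  have hle : Fintype.card ι ≤ Nat.card (Q N) := card_le_of_indep N wt F indep
  have hsep : ∀ g : SL(2, ℤ), (sepForm N : ℍ → ℂ) ∣[(4 : ℤ)] g = sepForm N →
      g ∈ CongruenceSubgroup.Gamma0 N := mem_Gamma0_of_sepForm_slash N
  have hcard : Fintype.card ι = Nat.card (Q N) :=
    RankInv.card_eq_of_le wt F span (sepForm N) hsep hle
  have hinv : ∀ z : ℍ, ∃ H : Matrix ι (Q N) ℂ,
      H * RankInv.fundM wt F z = 1 ∧ RankInv.fundM wt F z * H = 1 :=
    RankInv.exists_inverse wt F span (sepForm N) hsep hcard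
  choose H hH1 hH2 using hinv
  have hzero : ∀ i x, Tendsto (fun z => ModularForm.discriminant z * H z i x) atImInfty (𝓝 0) :=
    Cusp.tendsto_discriminant_mul_inv wt F (fun i => ⟨hnn i, hev i⟩) span indep hcard H hH2
  have h10 : ∀ i, wt i ≤ 10 := Dual.wt_le_of_inverse (wt := wt) (F := F) (H := H) hH1 hH2 hzero hev
  have hS : ∀ k : ℤ, Module.finrank ℂ (CuspForm (G0 N) k)
      = ∑ i, Module.finrank ℂ (ModularForm 𝒮ℒ (k + wt i - 12)) :=
    Dual.finrank_cuspForm_of_inverse (wt := wt) (F := F) (H := H) hH1 hH2 hzero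
  have hM : ∀ k : ℤ, Module.finrank ℂ (ModularForm (G0 N) k)
      = ∑ i, Module.finrank ℂ (ModularForm 𝒮ℒ (k - wt i)) :=
    finrank_eq_sum_of_basis N wt F span indep
  have hlim := Cusp.exists_form_with_limits wt F (fun i => ⟨hnn i, hev i⟩) h10 span indep hcard
  have h14 := Bdry.finrank_mf_eq_of_limits (N := N) (k := 14) hlim
  have hcusp := Bdry.card_wt_cusp_of (N := N) wt (fun i => ⟨hnn i, h10 i, hev i⟩) (hM 14) (hS 14) h14
  have hI := sum_I_pow_of_inverse wt F (fun z => ⟨H z, hH1 z, hH2 z⟩)
  have hω := sum_omega_pow_of_inverse wt F (fun z => ⟨H z, hH1 z, hH2 z⟩)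
  have hS2 : Module.finrank ℂ (CuspForm (G0 N) 2) = Nat.card {i : ι // wt i = 10} := by
    rw [hS 2, Bdry.natCard_subtype_eq_sum wt 10]
    exact Finset.sum_congr rfl fun i _ => finrank_levelOne_sub_ten (wt i) (hnn i) (h10 i)
  rw [hS2]
  exact arith_core wt _ _ _ _ (fun i => ⟨hnn i, h10 i, hev i⟩) h0 hcard hcusp hI hω

end core

theorem twelve_mul_finrank (N : ℕ) [NeZero N] :
    (12 : ℤ) * Module.finrank ℂ (CuspForm (G0 N) 2) =
      12 + Nat.card (Q N) - 3 * Nat.card {x : Q N // ModularGroup.S • x = x}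
        - 4 * Nat.card {x : Q N // (ModularGroup.S * ModularGroup.T) • x = x}
        - 6 * Nat.card (MulAction.orbitRel.Quotient (Subgroup.zpowers ModularGroup.T) (Q N)) := by
  classical
  obtain ⟨ι, hι, wt, F, span, indep⟩ := FreeGen.exists_freeBasis_data N
  exact twelve_mul_finrank_of wt F span indep

theorem result (N : ℕ) [NeZero N] :
    (Module.finrank ℂ (CuspForm (CongruenceSubgroup.Gamma0 N) 2) : ℚ) = ModularCurve.genusFormula N := by
  have h := twelve_mul_finrank N
  rw [IndexPsi.card_Q, FixedPoints.card_fixed_S, FixedPoints.card_fixed_ST,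
    CuspCount.card_orbits_T] at h
  have h' : (12 : ℚ) * Module.finrank ℂ (CuspForm (G0 N) 2) =
      12 + ModularCurve.dedekindPsi N - 3 * ModularCurve.nuTwo N - 4 * ModularCurve.nuThree N
        - 6 * ModularCurve.cuspCount N := by exact_mod_cast h
  unfold ModularCurve.genusFormula
  linarith

end Fermat.Agent.S20
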