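import Fermat.Statements.S21
import Fermat.Agent.S21.Reduction
import Fermat.Agent.S21.Primitive
import Fermat.Agent.S21.Parabolic
import Fermat.Agent.S21.Star
import Fermat.Agent.S21.Injective
import Fermat.Agent.S21.Hodge

set_option autoImplicit false
open ModularCurve

namespace Fermat.Agent.S21

theorem result (N : ℕ) [NeZero N] :
    Function.Injective (ModularCurve.periodHomPair N)
      ∧ LinearMap.range (ModularCurve.periodHomPair N)
          = ModularCurve.Period.parabolicHoms ℂ (CongruenceSubgroup.Gamma0 N) ℂ :=
  result_of (exists_primitive N) (periodMap_mem_parabolicHoms N) (exists_star_form N)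
    (period_conj_eq_zero N) (re_period_surjective N)

end Fermat.Agent.S21
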