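-- Statement S24 (row 23). Final assembly from PARTS A, B, C1, C2, P (skeleton v2 of helper24; all parts proved).
import Fermat.Statements.S24
import Fermat.Agent.S24.Defs
import Fermat.Agent.S24.RiemannHurwitz
import Fermat.Agent.S24.PermLemma
import Fermat.Agent.S24.Counting
import Fermat.Agent.S24.Modular

set_option autoImplicit false
open ModularCurve

namespace Fermat.Agent.S24

open AlgebraicCurve KaehlerDifferential in
theorem result (N : ℕ) [NeZero N]
    [AlgebraicCurve.HasCanonicalDivisor (K := AlgebraicClosure ℚ) (F := ↥(ModularCurve.modularFunctionFieldBar N))] :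
    (AlgebraicCurve.genus (AlgebraicClosure ℚ) ↥(ModularCurve.modularFunctionFieldBar N) : ℚ)
      = ModularCurve.genusFormula N := by
  classical
  have hx := jBar_transcendental N
  have := finiteDimensional_jBar N
  have hex : ∃ ω : Ω[↥(modularFunctionFieldBar N)⁄AlgebraicClosure ℚ], ω ≠ 0 :=
    exists_differential_ne_zero (jBar N) hx
  have hne : (0 : AlgebraicClosure ℚ) ≠ 1728 := by norm_num
  have hdeg := degree_eq_of_ramification (jBar N) hx {0, 1728}
    (fun c hc v hv => ord_eq_one_of_ne N c
      (fun h => hc (by simp [h])) (fun h => hc (by simp [h])) v hv)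
    hex.choose hex.choose_spec (canonicalDivisorOf hex.choose_spec)
    (fun v => canonicalDivisorOf_apply _ v)
  rw [Finset.sum_pair hne, card_placesOver_zero, card_placesOver_1728, card_placesOverInfty,
    finrank_jBar] at hdeg
  have h1 := card_Q0 N
  have h2 := two_mul_numOrbits_S N
  have h3 := three_mul_numOrbits_ST N
  have h4 := numOrbits_T N
  have h5 := numOrbits_add_le (X := Q0 N) ModularGroup.S ModularGroup.T
    SpecialLinearGroup.SL2Z_generators
  have h6 := even_card_add_numOrbits (X := Q0 N) ModularGroup.S ModularGroup.T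
  rw [genus, dif_pos hex]
  set d := Divisor.degree (canonicalDivisorOf hex.choose_spec) with hd
  set n := Nat.card (Q0 N) with hn
  set o2 := numOrbits (Q0 N) ModularGroup.S with ho2
  set o3 := numOrbits (Q0 N) (ModularGroup.S * ModularGroup.T) with ho3
  set oo := numOrbits (Q0 N) ModularGroup.T with hoo
  obtain ⟨g, hg⟩ : ∃ g : ℕ, d + 2 = 2 * (g : ℤ) := by
    obtain ⟨r, hr⟩ := h6
    refine ⟨r + 1 - (o2 + o3 + oo), ?_⟩
    omega
  have hg' : (d + 2).toNat / 2 = g := by
    rw [hg]
    omega
  rw [hg', genusFormula]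
  have hgq : (g : ℚ) = ((n : ℚ) + 2 - o2 - o3 - oo) / 2 := by
    have : (d : ℚ) + 2 = 2 * g := by exact_mod_cast hg
    have hdq : (d : ℚ) = -2 * n + ((n - o3) + (n - o2)) + (n - oo) := by exact_mod_cast hdeg
    linarith
  have h2q : (2 : ℚ) * o2 = dedekindPsi N + nuTwo N := by exact_mod_cast h2
  have h3q : (3 : ℚ) * o3 = dedekindPsi N + 2 * nuThree N := by exact_mod_cast h3
  have h1q : (n : ℚ) = dedekindPsi N := by exact_mod_cast h1
  have h4q : (oo : ℚ) = cuspCount N := by exact_mod_cast h4
  rw [hgq]
  linarith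

end Fermat.Agent.S24
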