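import Fermat.Statements.S25
import Fermat.Agent.S25.ATLAS
import Fermat.Agent.S25.TWIST
import Fermat.Agent.S25.PRES
import Fermat.Agent.S25.DICT
import Fermat.Agent.S25.ALGEQ
import Fermat.Agent.S25.MACH
import Fermat.Agent.S25.PROP

set_option autoImplicit false
set_option autoImplicit false
universe u
open CategoryTheory CategoryTheory.Limits AlgebraicGeometry AlgebraicGeometry.RelPicard NeronModelInfra
  GoodReductionJacobian
open AlgebraicGeometry AlgebraicGeometry.RelPicard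

namespace Fermat.Agent.S25

theorem result
    (k : Type u) [Field k] [IsAlgClosed k] {C : Scheme.{u}} (c : C ⟶ Spec (CommRingCat.of k))
    [IsProper c] [SmoothOfRelativeDimension 1 c] [IsIntegral C]
    (ε : SchemeHomOver (𝟙 (Spec (CommRingCat.of k))) c) :
    ∃ D : RelativePic0Designation k c,
      Nonempty (RepresentsRelSubPic c ε (algEquivZeroCut c ε) D) ∧
        Smooth D.toBase ∧ IsProper D.toBase ∧ GeometricallyConnected D.toBase := by
  obtain ⟨pres⟩ := exists_presentation k c ε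
  obtain ⟨𝒟⟩ := exists_dictionary k c ε pres
  obtain ⟨𝒜⟩ := exists_chartAtlas pres.𝒞
  obtain ⟨𝒯⟩ := exists_pointTwists pres.𝒞
  have hdeg : ∀ {T : Scheme.{u}} (t : T ⟶ Spec (CommRingCat.of k))
      (M : RigidifiedLineBundle c ε t), FibrewiseAlgEquivZero M ↔ IsDeg0 𝒟 t M :=
    fun t M => algEquivZero_iff_isDeg0 k c ε 𝒟 t M
  obtain ⟨D, ⟨hrep⟩, hsm⟩ := machine k c ε 𝒟 𝒜 hdeg
  obtain ⟨hp, hc⟩ := proper_connected k c ε pres 𝒟 𝒯 hdeg D hrep hsm
  exact ⟨D, ⟨hrep⟩, hsm, hp, hc⟩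

end Fermat.Agent.S25
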