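-- S28 (Igusa): final assembly on helper6088's skeleton.
-- Pieces: Part I `exists_ANData` (AN/*: helper5428 sub-skeleton, integration helper3268, CuspLemmas helper9928,
-- TExp helper8149, Taylor helper8728, Bridge helper4649, Formal/Arith helper2068, InvPolyJ helper8964);
-- Part IIa `span_of_ANData` (helper5369); Part IIb `isIntegral_yUnit` (helper1829),
-- `linearIndependent_red_yUnit` (helper3589, core helper9508); Part III QRed/* (helper448);
-- Part IV Tensor (helper6088 tree); Glue (helper568).  Assembly: helper3589.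
import Fermat.Statements.S28
import Fermat.Agent.S28.AN.Assemble
import Fermat.Agent.S28.Span
import Fermat.Agent.S28.IsIntegralY
import Fermat.Agent.S28.RedIndep
import Fermat.Agent.S28.QRed.Core
import Fermat.Agent.S28.Tensor
import Fermat.Agent.S28.Glue

set_option autoImplicit false
open AlgebraicGeometry CategoryTheory CategoryTheory.Limits ModularCurve ModularCurve.IgusaScheme
noncomputable section
set_option autoImplicit false
open ModularCurve ModularCurve.IgusaScheme

namespace Fermat.Agent.S28

set_option maxHeartbeats 4000000 in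
set_option synthInstance.maxHeartbeats 400000 in
theorem result
    (N : ℕ) [NeZero N] (ℓ : ℕ) [Fact ℓ.Prime] (hℓN : ¬ ℓ ∣ N)
    (K : Type) [Field K] [CharP K ℓ] [Algebra ↥(GaloisRep.ratLocalizedAt ℓ) K] :
    IsIntegral ↑(pullback (igusaTo N ℓ)
      (Spec.map (CommRingCat.ofHom (algebraMap ↥(GaloisRep.ratLocalizedAt ℓ) K)))) := by
  obtain ⟨D⟩ := exists_ANData N
  have h1 := isIntegral_yUnit N ℓ hℓN D
  have h2 := linearIndependent_red_yUnit N ℓ hℓN D
  have h3 := span_of_ANData N D
  obtain ⟨ρf, hρf⟩ := QRed.exists_rho_fin N ℓ _ h1 h2 h3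
  obtain ⟨ρi, hρi⟩ := QRed.exists_rho_inf N ℓ _ h1 h2 h3
  obtain ⟨ρm⟩ := QRed.exists_rho_mid N ℓ
  exact isIntegral_pullback_igusaTo_of_charts N ℓ K
    (isDomain_tensor_of_rho ℓ _ K ρf hρf) (isDomain_tensor_of_rho ℓ _ K ρi hρi)
    (nontrivial_tensor_of_rho ℓ _ K ρm)

end Fermat.Agent.S28
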