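import Fermat.Statements.S51
import Fermat.Agent.S51.H2811D
import Fermat.Agent.S51.AlgFinal
import Fermat.Agent.S51.TorsionFive

set_option autoImplicit false
open WeierstrassCurve WeierstrassCurve.Affine WeierstrassCurve.Affine.Point
open CuspForm ModularFormClass UpperHalfPlane
open WeierstrassCurve

namespace Fermat.Agent.S51

theorem result (W : WeierstrassCurve ℤ) (hΔ : W.Δ ≠ 0) (hW : W.IsSemistableModel) : W.ModRepIsIrreducible 3 ∨ W.ModRepIsIrreducible 5 := by
  by_contra hcon
  rw [not_or] at hcon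
  obtain ⟨h3, h5⟩ := hcon
  obtain ⟨x0, hx0⟩ := H2811.exists_rat_root_of_not_irreducible_three
    (W.map (Int.castRingHom ℚ)) (nontrivial_torsion_three W hΔ) h3
  obtain ⟨e, δ, hδ, h6, h8⟩ := H2811.exists_rat_two_cycle_of_not_irreducible_five
    (W.map (Int.castRingHom ℚ)) (nontrivial_torsion_five W hΔ) h5
  have hb := (W.map (Int.castRingHom ℚ)).b_relation
  refine not_isSemistableModel_of_torsion_data W hΔ x0 (2 * e) (e ^ 2 - δ) hx0 ?_ ?_ ?_ hW
  · intro h
    apply hδ
    linear_combination (1 / 4 : ℚ) * h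
  · linear_combination (-2 : ℚ) * h8 + (0 : ℚ) * h6
  · linear_combination (-1 : ℚ) * h6

end Fermat.Agent.S51
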