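import Fermat.Statements.S52
import Fermat.Agent.S51.H2811D
import Fermat.Agent.S51.TorsionThree
import Fermat.Agent.S52.MapLemmas
import Fermat.Agent.S52.ALG
import Fermat.Agent.S52.IRR
import Fermat.Agent.S52.GLUE

set_option autoImplicit false
open WeierstrassCurve WeierstrassCurve.Affine WeierstrassCurve.Affine.Point
open CuspForm ModularFormClass UpperHalfPlane
open WeierstrassCurve

namespace Fermat.Agent.S52

/-- a rational root of `ψ₃` of an integral model gives a rational root of `ψ₃` of the short model. -/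
theorem short_root_of_root (W : WeierstrassCurve ℤ) (x : ℚ)
    (hx : 3 * x ^ 4 + (W.map (Int.castRingHom ℚ)).b₂ * x ^ 3 + 3 * (W.map (Int.castRingHom ℚ)).b₄ * x ^ 2
      + 3 * (W.map (Int.castRingHom ℚ)).b₆ * x + (W.map (Int.castRingHom ℚ)).b₈ = 0) :
    3 * (36 * x + 3 * (W.b₂ : ℚ)) ^ 4 + 6 * (27 * ((-W.c₄ : ℤ) : ℚ)) * (36 * x + 3 * (W.b₂ : ℚ)) ^ 2
      + 12 * (54 * ((-W.c₆ : ℤ) : ℚ)) * (36 * x + 3 * (W.b₂ : ℚ)) - (27 * ((-W.c₄ : ℤ) : ℚ)) ^ 2 = 0 := by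
  have h := psi3_shortModel (W.map (Int.castRingHom ℚ)) x
  rw [hx, mul_zero] at h
  simp only [WeierstrassCurve.map_b₂, WeierstrassCurve.map_c₄, WeierstrassCurve.map_c₆,
    eq_intCast] at h
  push_cast
  linear_combination h

theorem result (W : WeierstrassCurve ℤ) (hΔ : W.Δ ≠ 0) (hW : W.IsSemistableModel) (h5 : W.ModRepIsIrreducible 5) : ∃ W' : WeierstrassCurve ℤ, W'.Δ ≠ 0 ∧ W'.IsSemistableModel ∧ W'.ModRepIsIrreducible 3 ∧ ∀ ℓ : ℕ, ℓ.Prime → W.IsGoodPrimeFor ℓ → W'.IsGoodPrimeFor ℓ → ℓ ≠ 5 → (5 : ℤ) ∣ (W'.apOfModel ℓ - W.apOfModel ℓ) := by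
  by_cases h3 : W.ModRepIsIrreducible 3
  · exact ⟨W, hΔ, hW, h3, fun ℓ _ _ _ _ => by simp⟩
  · obtain ⟨x0, hx0⟩ := Fermat.Agent.S51.H2811.exists_rat_root_of_not_irreducible_three
      (W.map (Int.castRingHom ℚ)) (Fermat.Agent.S51.nontrivial_torsion_three W hΔ) h3
    have h0 : (-W.c₄) ^ 3 + (-W.c₆) ^ 2 ≠ 0 := by
      have hc := W.c_relation
      intro h
      apply hΔ
      have : 1728 * W.Δ = 0 := by linear_combination hc - h
      simpa using this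
    have hM : (10368 * (5 * W.Δ) : ℤ) ≠ 0 := by
      simp [hΔ]
    obtain ⟨s, hMs, hs0, hroot⟩ := exists_param_no_rat_root (-W.c₄) (-W.c₆) h0
      (10368 * (5 * W.Δ)) hM (36 * x0 + 3 * (W.b₂ : ℚ)) (short_root_of_root W x0 hx0)
    obtain ⟨t, ht⟩ := hMs
    have hs : s = 10368 * (5 * W.Δ * t) := by rw [ht]; ring
    have hm0 : 5 * W.Δ * t ≠ 0 := by
      intro h; apply hs0; rw [hs, h, mul_zero]
    have hΔ' := switchModel_Δ_ne_zero W hΔ (5 * W.Δ * t) hm0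
    refine ⟨switchModel W (5 * W.Δ * t), hΔ',
      switchModel_isSemistable W hΔ hW (5 * W.Δ * t) (Dvd.intro _ rfl), ?_,
      fun ℓ hℓ hg hg' hℓ5 => switch_ap_congr W (5 * W.Δ * t) ℓ hℓ hℓ5 hg hg'⟩
    by_contra hirr
    obtain ⟨x1, hx1⟩ := Fermat.Agent.S51.H2811.exists_rat_root_of_not_irreducible_three
      ((switchModel W (5 * W.Δ * t)).map (Int.castRingHom ℚ))
      (Fermat.Agent.S51.nontrivial_torsion_three _ hΔ') hirr
    have h1 := short_root_of_root (switchModel W (5 * W.Δ * t)) x1 hx1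
    rw [switchModel_c₄, switchModel_c₆, neg_neg, neg_neg, ← hs, intCast_rsA, intCast_rsB] at h1
    exact hroot _ h1

end Fermat.Agent.S52
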