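-- Statement S54 (row 48): R ↠ T.
import Fermat.Statements.S54
import Fermat.Agent.S54.Frobenius

set_option autoImplicit false
open GaloisRep GaloisRep.DeformationRingData

namespace Fermat.Agent.S54

open Polynomial in
/-- The trace coefficient of a Frobenius characteristic polynomial lies in the range of `φ`. -/
theorem coeff_mem_range_of_charpoly {R T : Type} [CommRing R] [CommRing T] [IsLocalRing R]
    [IsLocalRing T] (φ : R →+* T) (hφ : IsLocalHom φ) (ρR : GaloisRepAdic R)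
    (ρT : GaloisRepAdic T) (he : (ρR.baseChangeAlong φ hφ).IsEquiv ρT)
    (σ : AlgebraicClosure ℚ ≃ₐ[ℚ] AlgebraicClosure ℚ) (t c : T)
    (hcp : LinearMap.charpoly (ρT.ρ σ) = X ^ 2 - C t * X + C c) : t ∈ φ.range := by
  obtain ⟨e⟩ := he
  let _ : Algebra R T := φ.toAlgebra
  let e' : (TensorProduct R T ρR.V) ≃ₗ[T] ρT.V := e.toLinearEquiv
  have hmap : ∀ x : TensorProduct R T ρR.V,
      e' ((ρR.ρ σ).baseChange T x) = ρT.ρ σ (e' x) := fun x => e.map_apply σ x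
  have hconj : ρT.ρ σ = e'.conj ((ρR.ρ σ).baseChange T) := by
    apply LinearMap.ext
    intro x
    rw [LinearEquiv.conj_apply_apply, hmap, LinearEquiv.apply_symm_apply]
  have hcharpoly : LinearMap.charpoly (ρT.ρ σ) = (LinearMap.charpoly (ρR.ρ σ)).map φ := by
    rw [hconj, LinearEquiv.charpoly_conj, LinearMap.charpoly_baseChange]
    rfl
  have h2 := congrArg (fun p : T[X] => p.coeff 1) (hcp.symm.trans hcharpoly)
  simp only [coeff_add, coeff_sub, coeff_X_pow, coeff_C_mul, coeff_X_one, coeff_C, coeff_map] at h2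
  norm_num at h2
  refine ⟨-(LinearMap.charpoly (ρR.ρ σ)).coeff 1, ?_⟩
  rw [map_neg, ← h2, neg_neg]

theorem result {𝒪 : Type} [CommRing 𝒪] [IsDomain 𝒪] [IsDiscreteValuationRing 𝒪] [IsAdicComplete (IsLocalRing.maximalIdeal 𝒪) 𝒪] {ρbar : ResidualGaloisRep (IsLocalRing.ResidueField 𝒪)} {𝒟 : ∀ ⦃A : Type⦄ [CommRing A] [IsLocalRing A] [Algebra 𝒪 A], GaloisRepAdic A → Prop} (D : GaloisRep.DeformationRingData 𝒪 ρbar 𝒟) {N : ℕ} [NeZero N] {S : Set ℕ} {θ : CuspForm.heckeAlgebra N 2 S →+* IsLocalRing.ResidueField 𝒪} {T : Type} [CommRing T] [IsLocalRing T] [IsNoetherianRing T] [IsAdicComplete (IsLocalRing.maximalIdeal T) T] [Algebra 𝒪 T] [IsLocalHom (algebraMap 𝒪 T)] [Module.Finite 𝒪 T] [Module.Free 𝒪 T] (H : CuspForm.HeckeGaloisRepDatum N S 𝒪 θ T) (hS : ∀ q : ℕ, q.Prime → q ∣ N → q ∈ S) (h𝒟 : 𝒟 H.ρ) (hres : H.ρ.residual.IsEquiv (ρbar.baseChangeAlong (IsLocalRing.ResidueField.map (algebraMap 𝒪 T)))) : ∃ φ : D.R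 →ₐ[𝒪] T, Function.Surjective φ ∧ ∃ hφ : IsLocalHom (φ : D.R →+* T), (D.ρ.baseChangeAlong (φ : D.R →+* T) hφ).IsEquiv H.ρ := by
  obtain ⟨φ, ⟨hφ, hequiv⟩, -⟩ := D.universal T H.residue_surjective H.ρ h𝒟 hres
  refine ⟨φ, ?_, hφ, hequiv⟩
  have hrange : ∀ t : CuspForm.heckeAlgebra N 2 S, H.π t ∈ φ.range := by
    rintro ⟨t, ht⟩
    induction ht using Algebra.adjoin_induction with
    | mem x hx =>
      rcases hx with ⟨ℓ, hℓ, hℓN, hℓS, rfl⟩ | ⟨q, hqN, hq, hqS, rfl⟩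
      · obtain ⟨A, σ, hA, hσ⟩ := exists_frobenius ℓ hℓ
        have hcp := H.charpoly_frob ℓ hℓ hℓN hℓS A hA σ hσ
        exact coeff_mem_range_of_charpoly (φ : D.R →+* T) hφ D.ρ H.ρ hequiv σ _ _ hcp
      · exact absurd (hS q hq hqN) hqS
    | algebraMap r =>
      refine ⟨(r : D.R), ?_⟩
      have h1 : (⟨algebraMap ℤ _ r, Subalgebra.algebraMap_mem _ r⟩ : CuspForm.heckeAlgebra N 2 S) =
          ((r : ℤ) : CuspForm.heckeAlgebra N 2 S) := by
        apply Subtype.ext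
        simp
      rw [h1, map_intCast, map_intCast]
    | add x y hx hy ihx ihy =>
      have h1 : (⟨x + y, add_mem hx hy⟩ : CuspForm.heckeAlgebra N 2 S) = ⟨x, hx⟩ + ⟨y, hy⟩ := rfl
      rw [h1, map_add]
      exact add_mem ihx ihy
    | mul x y hx hy ihx ihy =>
      have h1 : (⟨x * y, mul_mem hx hy⟩ : CuspForm.heckeAlgebra N 2 S) = ⟨x, hx⟩ * ⟨y, hy⟩ := rfl
      rw [h1, map_mul]
      exact mul_mem ihx ihy
  have htop : φ.range = ⊤ := by
    rw [eq_top_iff, ← H.adjoin_range_π]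
    apply Algebra.adjoin_le
    rintro _ ⟨t, rfl⟩
    exact hrange t
  intro x
  have hx : x ∈ φ.range := by rw [htop]; exact Algebra.mem_top
  exact hx

end Fermat.Agent.S54
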