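import Fermat.Statements.S57
import Mathlib.RingTheory.Regular.ProjectiveDimension
import Mathlib.RingTheory.MvPowerSeries.Equiv
import Mathlib.RingTheory.PowerSeries.Inverse
import Mathlib.RingTheory.MvPowerSeries.Inverse
import Mathlib.RingTheory.FiniteLength
import Mathlib.RingTheory.Regular.Flat
import Mathlib.Algebra.Module.Torsion.Basic
import Mathlib.RingTheory.LocalRing.ResidueField.Basic
import Mathlib.RingTheory.LocalRing.Module

set_option autoImplicit false
open Algebra Algebra.PatchingLevel

namespace Fermat.Agent.S57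

open CategoryTheory IsLocalRing RingTheory.Sequence
open scoped Pointwise

/-! ### Projective dimension of finite length modules -/

theorem hasProjDimLE_of_simple {A : Type} [CommRing A] [IsLocalRing A] [IsNoetherianRing A]
    (W : List A) (hW : IsWeaklyRegular A W) (hm : Ideal.ofList W = maximalIdeal A)
    {Q : Type} [AddCommGroup Q] [Module A Q] [IsSimpleModule A Q] :
    HasProjectiveDimensionLE (ModuleCat.of A Q) W.length := by
  have hmem : ∀ r ∈ W, r ∈ maximalIdeal A := by
    intro r hr
    rw [← hm]
    exact Ideal.subset_span hr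
  have hreg : IsRegular A W :=
    (IsLocalRing.isRegular_iff_isWeaklyRegular_of_subset_maximalIdeal hmem).mpr hW
  obtain ⟨I, hI, ⟨e⟩⟩ := (isSimpleModule_iff_quot_maximal (R := A) (M := Q)).mp inferInstance
  have hI' : I = Ideal.ofList W := by rw [hm]; exact IsLocalRing.eq_maximalIdeal hI
  subst hI'
  have h1 := ModuleCat.projectiveDimension_quotient_eq_length.{0} W hreg
  let e' : (ModuleCat.of A Q) ≃ₗ[A] (ModuleCat.of A (Shrink.{0} (A ⧸ Ideal.ofList W))) :=
    e.trans (Shrink.linearEquiv A (A ⧸ Ideal.ofList W)).symm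
  have h2 := ModuleCat.projectiveDimension_eq_of_linearEquiv e'
  rw [← projectiveDimension_le_iff, h2, h1]

theorem hasProjDimLE_of_isFiniteLength {A : Type} [CommRing A] [IsLocalRing A] [IsNoetherianRing A]
    (W : List A) (hW : IsWeaklyRegular A W) (hm : Ideal.ofList W = maximalIdeal A)
    {Q : Type} [AddCommGroup Q] [Module A Q] (hQ : IsFiniteLength A Q) :
    HasProjectiveDimensionLE (ModuleCat.of A Q) W.length := by
  induction hQ with
  | of_subsingleton =>
    rename_i M _ _ _
    have hz : Limits.IsZero (ModuleCat.of A M) := ModuleCat.isZero_of_subsingleton _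
    have := hz.hasProjectiveDimensionLT_zero
    exact hasProjectiveDimensionLT_of_ge _ 0 _ (Nat.zero_le _)
  | of_simple_quotient hN ih =>
    rename_i M _ _ N _
    have hS := LinearMap.shortExact_shortComplexKer (f := N.mkQ) (Submodule.mkQ_surjective N)
    have h3 : HasProjectiveDimensionLE (ModuleCat.of A (M ⧸ N)) W.length :=
      hasProjDimLE_of_simple W hW hm
    have h1 : HasProjectiveDimensionLE (ModuleCat.of A (LinearMap.ker N.mkQ)) W.length := by
      have e : (ModuleCat.of A N) ≃ₗ[A] (ModuleCat.of A (LinearMap.ker N.mkQ)) :=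
        LinearEquiv.ofEq _ _ (Submodule.ker_mkQ N).symm
      exact ModuleCat.hasProjectiveDimensionLE_of_linearEquiv e _
    exact hS.hasProjectiveDimensionLT_X₂ _ h1 h3

/-! ### Regular sequences generating the maximal ideal of a power series ring -/

theorem good_map_ringEquiv {A B : Type} [CommRing A] [CommRing B] [IsLocalRing A] [IsLocalRing B]
    (e : A ≃+* B) (as : List A)
    (h : IsWeaklyRegular A as ∧ Ideal.ofList as = maximalIdeal A) :
    IsWeaklyRegular B (as.map e) ∧ Ideal.ofList (as.map e) = maximalIdeal B := by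
  constructor
  · refine (AddEquiv.isWeaklyRegular_congr (e := e.toAddEquiv) ?_).mp h.1
    exact List.forall₂_map_right_iff.mpr (List.forall₂_same.mpr fun r _ x => map_mul e r x)
  · have := Ideal.map_ofList (e : A →+* B) as
    rw [h.2, IsLocalRing.map_maximalIdeal_of_surjective (e : A →+* B) e.surjective] at this
    exact this.symm

theorem good_powerSeries {A : Type} [CommRing A] [IsLocalRing A] (as : List A)
    (h : IsWeaklyRegular A as ∧ Ideal.ofList as = maximalIdeal A) :
    IsWeaklyRegular (PowerSeries A)
        (PowerSeries.X :: as.map (PowerSeries.C : A →+* PowerSeries A)) ∧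
      Ideal.ofList (PowerSeries.X :: as.map (PowerSeries.C : A →+* PowerSeries A)) =
        maximalIdeal (PowerSeries A) := by
  constructor
  · rw [isWeaklyRegular_cons_iff]
    constructor
    · intro a b hab
      exact PowerSeries.X_mul_cancel hab
    · let f : A →+ QuotSMulTop (PowerSeries.X : PowerSeries A) (PowerSeries A) :=
        (Submodule.mkQ _).toAddMonoidHom.comp (PowerSeries.C : A →+* PowerSeries A).toAddMonoidHom
      have hf : ∀ a, f a = Submodule.Quotient.mk (PowerSeries.C a) := fun a => rfl
      have hinj : Function.Injective f := by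
        rw [injective_iff_map_eq_zero]
        intro a ha
        rw [hf, Submodule.Quotient.mk_eq_zero, Submodule.mem_smul_pointwise_iff_exists] at ha
        obtain ⟨y, -, hy⟩ := ha
        have := congrArg PowerSeries.constantCoeff hy
        simpa using this.symm
      have hsurj : Function.Surjective f := by
        intro q
        obtain ⟨g, rfl⟩ := Submodule.Quotient.mk_surjective _ q
        refine ⟨PowerSeries.constantCoeff g, ?_⟩
        rw [hf]
        symm
        rw [Submodule.Quotient.eq, Submodule.mem_smul_pointwise_iff_exists]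
        exact ⟨_, trivial, (PowerSeries.sub_const_eq_X_mul_shift g).symm⟩
      let e := AddEquiv.ofBijective f ⟨hinj, hsurj⟩
      refine (AddEquiv.isWeaklyRegular_congr (e := e) ?_).mp h.1
      refine List.forall₂_map_right_iff.mpr (List.forall₂_same.mpr fun r _ x => ?_)
      change f (r • x) = _ • f x
      rw [hf, hf, smul_eq_mul, map_mul]
      rfl
  · apply le_antisymm
    · rw [Ideal.ofList, Ideal.span_le]
      intro g hg
      have hg' : g ∈ (PowerSeries.X :: as.map (PowerSeries.C : A →+* PowerSeries A)) := hg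
      rw [List.mem_cons, List.mem_map] at hg'
      rw [SetLike.mem_coe, IsLocalRing.mem_maximalIdeal, mem_nonunits_iff,
        PowerSeries.isUnit_iff_constantCoeff]
      rcases hg' with rfl | ⟨a, ha, rfl⟩
      · simp
      · rw [PowerSeries.constantCoeff_C]
        have : a ∈ maximalIdeal A := by rw [← h.2]; exact Ideal.subset_span ha
        exact this
    · intro g hg
      rw [IsLocalRing.mem_maximalIdeal, mem_nonunits_iff,
        PowerSeries.isUnit_iff_constantCoeff] at hg
      have hg0 : PowerSeries.constantCoeff g ∈ Ideal.ofList as := by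
        rw [h.2]; exact hg
      have h1 : g = PowerSeries.X * (PowerSeries.mk fun p ↦ PowerSeries.coeff (p + 1) g) +
          PowerSeries.C (PowerSeries.constantCoeff g) := PowerSeries.eq_X_mul_shift_add_const g
      rw [h1, Ideal.ofList_cons]
      refine Ideal.add_mem _ (Ideal.mem_sup_left ?_) (Ideal.mem_sup_right ?_)
      · exact Ideal.mul_mem_right _ _ (Ideal.mem_span_singleton_self _)
      · rw [← Ideal.map_ofList]
        exact Ideal.mem_map_of_mem _ hg0

theorem exists_good (𝒪 : Type) [CommRing 𝒪] [IsDomain 𝒪] [IsDiscreteValuationRing 𝒪] (n : ℕ) :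
    ∃ W : List (MvPowerSeries (Fin n) 𝒪), IsWeaklyRegular (MvPowerSeries (Fin n) 𝒪) W ∧
      Ideal.ofList W = maximalIdeal (MvPowerSeries (Fin n) 𝒪) := by
  induction n with
  | zero =>
    obtain ⟨ϖ, hϖ⟩ := IsDiscreteValuationRing.exists_irreducible 𝒪
    have h0 : IsWeaklyRegular 𝒪 ([ϖ] : List 𝒪) ∧ Ideal.ofList ([ϖ] : List 𝒪) = maximalIdeal 𝒪 := by
      constructor
      · rw [isWeaklyRegular_singleton_iff]
        intro a b hab
        exact mul_left_cancel₀ hϖ.ne_zero hab
      · rw [Ideal.ofList_singleton]
        exact hϖ.maximalIdeal_eq.symm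
    exact ⟨_, good_map_ringEquiv (MvPowerSeries.isEmptyEquiv (Fin 0) 𝒪).symm.toRingEquiv _ h0⟩
  | succ n ih =>
    obtain ⟨W, hW⟩ := ih
    exact ⟨_, good_map_ringEquiv (MvPowerSeries.finSuccEquiv 𝒪 n).symm.toRingEquiv _
      (good_powerSeries W hW)⟩

/-! ### Freeness from a semilinear basis -/

theorem isArtinian_of_semilinear_surjective {A : Type} [CommRing A] (φ : A →+* A)
    {P Q : Type} [AddCommGroup P] [AddCommGroup Q] [Module A P] [Module A Q]
    (f : P →ₛₗ[φ] Q) (hf : Function.Surjective f) [IsArtinian A P] : IsArtinian A Q := by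
  have hmono : StrictMono (Submodule.comap f : Submodule A Q → Submodule A P) := by
    apply Monotone.strictMono_of_injective
    · exact fun _ _ h => Submodule.comap_mono h
    · intro U V h
      ext x
      obtain ⟨y, rfl⟩ := hf x
      have := congrArg (fun W => y ∈ W) h
      simpa using this
  exact hmono.wellFoundedLT

theorem isArtinian_pi_quot_maximalIdeal {A : Type} [CommRing A] [IsLocalRing A] (d : ℕ) :
    IsArtinian A ((Fin d → A) ⧸ (maximalIdeal A • ⊤ : Submodule A (Fin d → A))) := by
  have hM : Module.IsTorsionBySet A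
      ((Fin d → A) ⧸ (maximalIdeal A • ⊤ : Submodule A (Fin d → A))) (maximalIdeal A) :=
    Module.isTorsionBySet_quotient_ideal_smul _ _
  let _ := hM.module
  have hss : IsSemisimpleRing (A ⧸ maximalIdeal A) :=
    inferInstanceAs (IsSemisimpleRing (ResidueField A))
  have : IsSemisimpleModule A
      ((Fin d → A) ⧸ (maximalIdeal A • ⊤ : Submodule A (Fin d → A))) :=
    hM.isSemisimpleModule_iff.mp inferInstance
  infer_instance

theorem free_of_semilinear_basis {A : Type} [CommRing A] [IsLocalRing A] [IsNoetherianRing A]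
    (W : List A) (hW : IsWeaklyRegular A W) (hm : Ideal.ofList W = maximalIdeal A)
    (φ : A →+* A) (hφ : ∀ a ∈ maximalIdeal A, φ a ∈ maximalIdeal A)
    {N : Type} [AddCommGroup N] [Module A N] [Nontrivial N]
    {d : ℕ} (E : (Fin d → A) ≃+ N) (hE : ∀ (a : A) (c : Fin d → A), E (a • c) = φ a • E c) :
    Module.Free A N := by
  classical
  -- `N` is finitely generated
  have hfin : Module.Finite A N := by
    let g : (Fin d → A) →ₗ[A] N := Fintype.linearCombination A (fun i => E (Pi.single i 1))
    refine Module.Finite.of_surjective g ?_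
    intro x
    obtain ⟨c, rfl⟩ := E.surjective x
    refine ⟨fun i => φ (c i), ?_⟩
    have hc : c = ∑ i, c i • (Pi.single i (1 : A) : Fin d → A) := by
      ext j
      simp [Finset.sum_apply, Pi.single_apply]
    conv_rhs => rw [hc]
    rw [map_sum]
    simp only [hE]
    rfl
  -- the regular sequence
  have h2 : IsWeaklyRegular (Fin d → A) W := by
    have h := IsWeaklyRegular.isWeaklyRegular_lTensor (M₂ := Fin d → A) hW
    exact (LinearEquiv.isWeaklyRegular_congr (TensorProduct.rid A (Fin d → A)) W).mp h
  have h3 : IsWeaklyRegular N (W.map φ) :=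
    (AddEquiv.isWeaklyRegular_congr (e := E)
      (List.forall₂_map_right_iff.mpr (List.forall₂_same.mpr fun r _ x => hE r x))).mp h2
  have hWm : ∀ r ∈ W, r ∈ maximalIdeal A := by
    intro r hr
    rw [← hm]
    exact Ideal.subset_span hr
  have h4 : ∀ r ∈ W.map φ, r ∈ maximalIdeal A := by
    intro r hr
    obtain ⟨a, ha, rfl⟩ := List.mem_map.mp hr
    exact hφ a (hWm a ha)
  have h5 := ModuleCat.projectiveDimension_quotient_eq_add_length_of_isWeaklyRegular
    (ModuleCat.of A N) (W.map φ) h3 h4
  -- finite length of the quotient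
  let E' : (Fin d → A) →ₛₗ[φ] N :=
    { toFun := E, map_add' := E.map_add, map_smul' := hE }
  have hle : (maximalIdeal A • ⊤ : Submodule A (Fin d → A)) ≤
      (Ideal.ofList (W.map φ) • ⊤ : Submodule A N).comap E' := by
    rw [Submodule.smul_le]
    intro r hr n _
    rw [Submodule.mem_comap, map_smulₛₗ]
    refine Submodule.smul_mem_smul ?_ trivial
    rw [← Ideal.map_ofList, hm]
    exact Ideal.mem_map_of_mem _ hr
  let f := Submodule.mapQ _ _ E' hle
  have hf : Function.Surjective f := by
    intro q
    obtain ⟨x, rfl⟩ := Submodule.Quotient.mk_surjective _ q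
    obtain ⟨c, rfl⟩ := E.surjective x
    exact ⟨Submodule.Quotient.mk c, rfl⟩
  have hart : IsArtinian A (N ⧸ (Ideal.ofList (W.map φ) • ⊤ : Submodule A N)) := by
    have := isArtinian_pi_quot_maximalIdeal (A := A) d
    exact isArtinian_of_semilinear_surjective φ f hf
  have hfl : IsFiniteLength A (N ⧸ (Ideal.ofList (W.map φ) • ⊤ : Submodule A N)) :=
    isFiniteLength_iff_isNoetherian_isArtinian.mpr ⟨inferInstance, hart⟩
  have h6 := hasProjDimLE_of_isFiniteLength W hW hm hfl
  rw [← projectiveDimension_le_iff] at h6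
  change projectiveDimension (ModuleCat.of A (N ⧸ (Ideal.ofList (W.map φ) • ⊤ : Submodule A N)))
    ≤ _ at h6
  rw [h5, List.length_map] at h6
  have h7 : projectiveDimension (ModuleCat.of A N) ≤ 0 := by
    have : projectiveDimension (ModuleCat.of A N) + (W.length : WithBot ℕ∞) ≤
        0 + (W.length : WithBot ℕ∞) := by simpa using h6
    exact (ENat.WithBot.add_le_add_natCast_right_iff).mp this
  have h8 : HasProjectiveDimensionLE (ModuleCat.of A N) 0 :=
    (projectiveDimension_le_iff _ 0).mp (by simpa using h7)
  have h9 : Projective (ModuleCat.of A N) :=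
    (projective_iff_hasProjectiveDimensionLE_zero _).mpr h8
  have h10 : Module.Projective A N := by
    rw [← IsProjective.iff_projective] at h9
    exact h9
  exact Module.free_of_flat_of_isLocalRing

/-! ### The statement -/

theorem result
    {𝒪 : Type} [CommRing 𝒪] [IsDomain 𝒪] [IsDiscreteValuationRing 𝒪]
    {r : ℕ} {R : Type} [CommRing R] [Algebra 𝒪 R]
    {M : Type} [AddCommGroup M] [Module R M] [Nontrivial M]
    (L : Algebra.PatchingLevel 𝒪 r R M ⊥) :
    Module.Free R M ∧ Module.annihilator R M = ⊥ ∧
      RingHom.ker L.ψ = Ideal.span (Set.range fun i : Fin r => L.φ (MvPowerSeries.X i)) := by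
  classical
  obtain ⟨W, hW, hm⟩ := exists_good 𝒪 r
  have hNnt : Nontrivial L.N := L.π_surjective.nontrivial
  -- the semilinear basis
  let E0 : (Fin L.d → MvPowerSeries (Fin r) 𝒪) →+ L.N :=
    { toFun := fun c => ∑ i, L.φ (c i) • L.b i
      map_zero' := by simp
      map_add' := by intro c c'; simp [add_smul, Finset.sum_add_distrib] }
  have hE0 : ∀ c, E0 c = ∑ i, L.φ (c i) • L.b i := fun c => rfl
  have hinj : Function.Injective E0 := by
    rw [injective_iff_map_eq_zero]
    intro c hc
    rw [hE0] at hc
    have h := (L.b_rel c).mp hc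
    funext i
    simpa using h i
  have hsurj : Function.Surjective E0 := by
    intro x
    obtain ⟨c, hc⟩ := L.b_span x
    exact ⟨c, hc.symm⟩
  let E : (Fin L.d → MvPowerSeries (Fin r) 𝒪) ≃+ L.N := AddEquiv.ofBijective E0 ⟨hinj, hsurj⟩
  have hE : ∀ (a : MvPowerSeries (Fin r) 𝒪) (c : Fin L.d → MvPowerSeries (Fin r) 𝒪),
      E (a • c) = (L.φ : MvPowerSeries (Fin r) 𝒪 →+* MvPowerSeries (Fin r) 𝒪) a • E c := by
    intro a c
    change E0 (a • c) = L.φ a • E0 c
    rw [hE0, hE0, Finset.smul_sum]
    refine Finset.sum_congr rfl fun i _ => ?_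
    rw [Pi.smul_apply, smul_eq_mul, map_mul, mul_smul]
  -- `φ` is a local homomorphism
  have hφ : ∀ a ∈ maximalIdeal (MvPowerSeries (Fin r) 𝒪),
      (L.φ : MvPowerSeries (Fin r) 𝒪 →+* MvPowerSeries (Fin r) 𝒪) a ∈
        maximalIdeal (MvPowerSeries (Fin r) 𝒪) := by
    intro f hf
    rw [IsLocalRing.mem_maximalIdeal, mem_nonunits_iff] at hf ⊢
    intro hu
    change IsUnit (L.φ f) at hu
    set a : 𝒪 := MvPowerSeries.constantCoeff (L.φ f) with ha
    have hau : IsUnit a := MvPowerSeries.isUnit_iff_constantCoeff.mp hu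
    have hf0 : ¬ IsUnit (MvPowerSeries.constantCoeff f) := fun h =>
      hf (MvPowerSeries.isUnit_iff_constantCoeff.mpr h)
    have h1 : IsUnit (f - MvPowerSeries.C a) := by
      rw [MvPowerSeries.isUnit_iff_constantCoeff, map_sub, MvPowerSeries.constantCoeff_C]
      by_contra hcon
      have hmem : MvPowerSeries.constantCoeff f - (MvPowerSeries.constantCoeff f - a) ∈
          maximalIdeal 𝒪 := Ideal.sub_mem _ hf0 hcon
      rw [sub_sub_cancel] at hmem
      exact hmem hau
    have h2 : IsUnit (L.φ (f - MvPowerSeries.C a)) := h1.map L.φ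
    have h3 : L.φ (MvPowerSeries.C a) = MvPowerSeries.C a := L.φ.commutes a
    rw [map_sub, h3, MvPowerSeries.isUnit_iff_constantCoeff, map_sub,
      MvPowerSeries.constantCoeff_C, ← ha, sub_self] at h2
    exact not_isUnit_zero h2
  have hfree : Module.Free (MvPowerSeries (Fin r) 𝒪) L.N :=
    free_of_semilinear_basis W hW hm _ hφ E hE
  -- consequences of freeness
  let v := Module.Free.chooseBasis (MvPowerSeries (Fin r) 𝒪) L.N
  set I : Ideal (MvPowerSeries (Fin r) 𝒪) :=
    Ideal.span (Set.range fun i : Fin r => L.φ (MvPowerSeries.X i)) with hI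
  have hIle : I ≤ RingHom.ker L.ψ := by
    rw [hI, Ideal.span_le]
    rintro _ ⟨i, rfl⟩
    exact L.ψ_φ_X i
  have hK : ∀ x : L.N, L.π x = 0 ↔ ∀ j, v.repr x j ∈ I := by
    intro x
    rw [L.ker_π x, ← hI, ← v.span_eq, Submodule.mem_ideal_smul_span_iff_exists_sum]
    constructor
    · rintro ⟨a, ha, rfl⟩ j
      have : v.repr (a.sum fun i c => c • v i) = a := by
        have := v.repr_linearCombination a
        rwa [Finsupp.linearCombination_apply] at this
      rw [this]
      exact ha j
    · intro h
      refine ⟨v.repr x, h, ?_⟩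
      have := v.linearCombination_repr x
      rwa [Finsupp.linearCombination_apply] at this
  have hπsum : ∀ a : Module.Free.ChooseBasisIndex (MvPowerSeries (Fin r) 𝒪) L.N →₀
      MvPowerSeries (Fin r) 𝒪, L.π (a.sum fun i c => c • v i) =
        a.sum fun i c => L.ψ c • L.π (v i) := by
    intro a
    rw [Finsupp.sum, map_sum]
    exact Finset.sum_congr rfl fun i _ => L.π_smul _ _
  have hker : RingHom.ker L.ψ = I := by
    refine le_antisymm ?_ hIle
    intro f hf
    obtain ⟨j₀⟩ := v.index_nonempty
    have h0 : L.π (f • v j₀) = 0 := by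
      rw [L.π_smul, (RingHom.mem_ker).mp hf, zero_smul]
    have := (hK _).mp h0 j₀
    simpa using this
  have hli : LinearIndependent R (fun j => L.π (v j)) := by
    rw [linearIndependent_iff]
    intro l hl
    obtain ⟨l', rfl⟩ := Finsupp.mapRange_surjective (L.ψ : MvPowerSeries (Fin r) 𝒪 → R)
      (map_zero _) L.ψ_surjective l
    have h1 : L.π (l'.sum fun i c => c • v i) = 0 := by
      rw [hπsum, ← hl, Finsupp.linearCombination_apply,
        Finsupp.sum_mapRange_index (by intro i; exact zero_smul _ _)]
    have h2 := (hK _).mp h1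
    have h3 : v.repr (l'.sum fun i c => c • v i) = l' := by
      have := v.repr_linearCombination l'
      rwa [Finsupp.linearCombination_apply] at this
    rw [h3] at h2
    ext j
    rw [Finsupp.mapRange_apply, Finsupp.zero_apply]
    exact hIle (h2 j)
  have hsp : ⊤ ≤ Submodule.span R (Set.range fun j => L.π (v j)) := by
    intro y _
    obtain ⟨x, rfl⟩ := L.π_surjective y
    have hx := v.linearCombination_repr x
    rw [Finsupp.linearCombination_apply] at hx
    rw [← hx, hπsum]
    refine Submodule.sum_mem _ fun i _ => ?_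
    exact Submodule.smul_mem _ _ (Submodule.subset_span ⟨i, rfl⟩)
  have hMfree : Module.Free R M := Module.Free.of_basis (Module.Basis.mk hli hsp)
  exact ⟨hMfree, Module.annihilator_eq_bot.mpr inferInstance, hker⟩

end Fermat.Agent.S57
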